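import Mathlib.NumberTheory.NumberField.Basic
import Mathlib.NumberTheory.FLT.Basic

/-!
# Kummer's approach to Fermat's Last Theorem for regular primes: shared definitions
-/

set_option autoImplicit false

namespace Fermat.Agent.Kummer

open NumberField

/-- Kummer's lemma for the prime `p` and the field `K` (meant: `K = ℚ(ζ_p)`): a unit of `𝓞 K`
which is congruent to a rational integer modulo `p` is a `p`-th power of a unit. -/
def KummerLemma (p : ℕ) (K : Type*) [Field K] [NumberField K] : Prop :=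
  ∀ u : (𝓞 K)ˣ, (∃ n : ℤ, (p : 𝓞 K) ∣ (u : 𝓞 K) - (n : 𝓞 K)) → ∃ v : (𝓞 K)ˣ, u = v ^ p

/-- Case I of Fermat's Last Theorem for the exponent `p`. -/
def CaseI (p : ℕ) : Prop :=
  ∀ a b c : ℤ, ¬ (p : ℤ) ∣ a * b * c → a ^ p + b ^ p ≠ c ^ p

end Fermat.Agent.Kummer
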