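import Mathlib
import Fermat.Agent.Lib.Kummer.Defs

/-!
# Case I of Fermat's Last Theorem by Sophie Germain's theorem

`germain`: if `q` is an auxiliary prime such that `x^p + y^p + z^p = 0` has only trivial
solutions modulo `q` and `p` is not a `p`-th power modulo `q`, then case I holds for `p`.
Instances: `(p, q) = (5, 11), (7, 29), (11, 23), (13, 53)`.
-/

set_option autoImplicit false

namespace Fermat.Agent.Kummer

open Finset

/-- The cofactor `(y ^ p + z ^ p) / (y + z)` (for odd `p`). -/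
def germainPhi (p : ℕ) {R : Type*} [CommRing R] (y z : R) : R :=
  ∑ i ∈ range p, y ^ i * (-z) ^ (p - 1 - i)

lemma germainPhi_mul {R : Type*} [CommRing R] {p : ℕ} (hp : Odd p) (y z : R) :
    germainPhi p y z * (y + z) = y ^ p + z ^ p := by
  have h := Commute.geom_sum₂_mul (Commute.all y (-z)) p
  rw [sub_neg_eq_add, hp.neg_pow, sub_neg_eq_add] at h
  exact h

lemma germainPhi_neg {R : Type*} [CommRing R] (p : ℕ) (y : R) :
    germainPhi p y (-y) = (p : R) * y ^ (p - 1) := by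
  unfold germainPhi
  rw [neg_neg]
  have : ∀ i ∈ range p, y ^ i * y ^ (p - 1 - i) = y ^ (p - 1) := by
    intro i hi
    rw [← pow_add]
    congr 1
    have := mem_range.mp hi
    omega
  rw [sum_congr rfl this, sum_const, card_range, nsmul_eq_mul]

lemma germainPhi_zero_left {R : Type*} [CommRing R] {p : ℕ} (hp : Odd p) (y : R) :
    germainPhi p 0 y = y ^ (p - 1) := by
  unfold germainPhi
  have hp0 : 0 < p := hp.pos
  rw [sum_eq_single 0]
  · rw [pow_zero, one_mul, Nat.sub_zero]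
    have : Even (p - 1) := by
      obtain ⟨k, hk⟩ := hp
      exact ⟨k, by omega⟩
    exact this.neg_pow y
  · intro i _ hi
    rw [zero_pow hi, zero_mul]
  · intro h
    exact absurd (mem_range.mpr hp0) h

lemma germainPhi_intCast (p n : ℕ) (y z : ℤ) :
    ((germainPhi p y z : ℤ) : ZMod n) = germainPhi p (y : ZMod n) (z : ZMod n) := by
  simp [germainPhi]

lemma isCoprime_of_forall_prime {A B : ℤ}
    (h : ∀ r : ℕ, r.Prime → (r : ℤ) ∣ A → (r : ℤ) ∣ B → False) : IsCoprime A B := by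
  rw [Int.isCoprime_iff_gcd_eq_one]
  by_contra hne
  obtain ⟨r, hr, hdvd⟩ := Nat.exists_prime_and_dvd hne
  exact h r hr ((Int.natCast_dvd_natCast.mpr hdvd).trans (Int.gcd_dvd_left ..))
    ((Int.natCast_dvd_natCast.mpr hdvd).trans (Int.gcd_dvd_right ..))

lemma not_prime_dvd_of_isCoprime {A B : ℤ} (h : IsCoprime A B) {r : ℕ} (hr : r.Prime)
    (h1 : (r : ℤ) ∣ A) (h2 : (r : ℤ) ∣ B) : False := by
  have hu : IsUnit (r : ℤ) := h.isUnit_of_dvd' h1 h2
  have := Int.isUnit_iff.mp hu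
  have h2' := hr.two_le
  omega

lemma germain_step1 {p : ℕ} (hp : p.Prime) (hodd : p ≠ 2) {x y z : ℤ} (hyz : IsCoprime y z)
    (h : x ^ p + y ^ p + z ^ p = 0) (hpx : ¬ (p : ℤ) ∣ x) :
    ∃ a α : ℤ, y + z = a ^ p ∧ germainPhi p y z = α ^ p := by
  have hpodd : Odd p := hp.odd_of_ne_two hodd
  have hmul : germainPhi p y z * (y + z) = (-x) ^ p := by
    rw [germainPhi_mul hpodd, hpodd.neg_pow]; linarith
  have hcop : IsCoprime (y + z) (germainPhi p y z) := by
    apply isCoprime_of_forall_prime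
    intro r hr h1 h2
    have : Fact r.Prime := Fact.mk hr
    have e1 : (y : ZMod r) + (z : ZMod r) = 0 := by
      have := (ZMod.intCast_zmod_eq_zero_iff_dvd (y + z) r).mpr h1
      simpa using this
    have e2 : germainPhi p (y : ZMod r) (z : ZMod r) = 0 := by
      rw [← germainPhi_intCast]
      exact (ZMod.intCast_zmod_eq_zero_iff_dvd _ r).mpr h2
    have hz : (z : ZMod r) = -(y : ZMod r) := by linear_combination e1
    rw [hz, germainPhi_neg] at e2
    rcases mul_eq_zero.mp e2 with h3 | h3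
    · have hrp : r ∣ p := (ZMod.natCast_eq_zero_iff p r).mp h3
      have hrp' : r = p := (Nat.prime_dvd_prime_iff_eq hr hp).mp hrp
      subst hrp'
      have h4 : (r : ℤ) ∣ y ^ r + z ^ r := by
        rw [← germainPhi_mul hpodd]; exact Dvd.dvd.mul_left h1 _
      have h5 : x ^ r = -(y ^ r + z ^ r) := by linarith
      have h6 : (r : ℤ) ∣ x ^ r := by rw [h5]; exact (dvd_neg).mpr h4
      exact hpx (Int.Prime.dvd_pow' hp h6)
    · have hy : (y : ZMod r) = 0 := pow_eq_zero_iff (by have := hp.two_le; omega) |>.mp h3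
      have hz0 : (z : ZMod r) = 0 := by rw [hz, hy, neg_zero]
      exact not_prime_dvd_of_isCoprime hyz hr
        ((ZMod.intCast_zmod_eq_zero_iff_dvd y r).mp hy)
        ((ZMod.intCast_zmod_eq_zero_iff_dvd z r).mp hz0)
  obtain ⟨a, ha⟩ := Int.eq_pow_of_mul_eq_pow_odd_left hcop hpodd (by rw [mul_comm]; exact hmul)
  obtain ⟨α, hα⟩ := Int.eq_pow_of_mul_eq_pow_odd_right hcop hpodd (by rw [mul_comm]; exact hmul)
  exact ⟨a, α, ha, hα⟩

lemma germain_core {p q : ℕ} (hp : p.Prime) (hodd : p ≠ 2) (hq : q.Prime)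
    (h1 : ∀ x y z : ZMod q, x ^ p + y ^ p + z ^ p = 0 → x = 0 ∨ y = 0 ∨ z = 0)
    (h2 : ∀ x : ZMod q, x ^ p ≠ (p : ZMod q))
    {x y z : ℤ} (hxy : IsCoprime x y) (hyz : IsCoprime y z) (hzx : IsCoprime z x)
    (h : x ^ p + y ^ p + z ^ p = 0) (hpx : ¬ (p : ℤ) ∣ x) (hpy : ¬ (p : ℤ) ∣ y)
    (hpz : ¬ (p : ℤ) ∣ z) (hqx : (q : ℤ) ∣ x) : False := by
  have : Fact q.Prime := Fact.mk hq
  have hpodd : Odd p := hp.odd_of_ne_two hodd
  obtain ⟨a, α, ha, hα⟩ := germain_step1 hp hodd hyz h hpx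
  obtain ⟨b, β, hb, -⟩ := germain_step1 hp hodd hzx (by linarith : y ^ p + z ^ p + x ^ p = 0) hpy
  obtain ⟨c, γ, hc, hγ⟩ := germain_step1 hp hodd hxy (by linarith : z ^ p + x ^ p + y ^ p = 0) hpz
  have hx0 : (x : ZMod q) = 0 := (ZMod.intCast_zmod_eq_zero_iff_dvd x q).mpr hqx
  have ea : (y : ZMod q) + z = (a : ZMod q) ^ p := by
    have := congrArg (Int.cast : ℤ → ZMod q) ha; simpa using this
  have eb : (z : ZMod q) + x = (b : ZMod q) ^ p := by
    have := congrArg (Int.cast : ℤ → ZMod q) hb; simpa using this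
  have ec : (x : ZMod q) + y = (c : ZMod q) ^ p := by
    have := congrArg (Int.cast : ℤ → ZMod q) hc; simpa using this
  have eα : germainPhi p (y : ZMod q) (z : ZMod q) = (α : ZMod q) ^ p := by
    have := congrArg (Int.cast : ℤ → ZMod q) hα
    rw [germainPhi_intCast] at this; simpa using this
  have eγ : germainPhi p (x : ZMod q) (y : ZMod q) = (γ : ZMod q) ^ p := by
    have := congrArg (Int.cast : ℤ → ZMod q) hγ
    rw [germainPhi_intCast] at this; simpa using this
  have hsum : (b : ZMod q) ^ p + (c : ZMod q) ^ p + (-(a : ZMod q)) ^ p = 0 := by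
    rw [hpodd.neg_pow, ← ea, ← eb, ← ec, hx0]; ring
  have ynz : (y : ZMod q) ≠ 0 := fun hy =>
    not_prime_dvd_of_isCoprime hxy hq hqx ((ZMod.intCast_zmod_eq_zero_iff_dvd y q).mp hy)
  have znz : (z : ZMod q) ≠ 0 := fun hz =>
    not_prime_dvd_of_isCoprime hzx hq ((ZMod.intCast_zmod_eq_zero_iff_dvd z q).mp hz) hqx
  rcases h1 _ _ _ hsum with hb0 | hc0 | ha0
  · rw [hb0, zero_pow hp.ne_zero, hx0, add_zero] at eb; exact znz eb
  · rw [hc0, zero_pow hp.ne_zero, hx0, zero_add] at ec; exact ynz ec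
  · have ha0' : (a : ZMod q) = 0 := neg_eq_zero.mp ha0
    rw [ha0', zero_pow hp.ne_zero] at ea
    have hz : (z : ZMod q) = -(y : ZMod q) := by linear_combination ea
    rw [hz, germainPhi_neg] at eα
    rw [hx0, germainPhi_zero_left hpodd] at eγ
    have γnz : (γ : ZMod q) ≠ 0 := by
      intro h0
      rw [h0, zero_pow hp.ne_zero] at eγ
      exact ynz (pow_eq_zero_iff (by have := hp.two_le; omega) |>.mp eγ)
    apply h2 ((α : ZMod q) * (γ : ZMod q)⁻¹)
    rw [mul_pow, inv_pow, ← eα, eγ]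
    field_simp

/-- **Sophie Germain's theorem** (generalised form with an auxiliary prime `q`). -/
theorem germain {p q : ℕ} (hp : p.Prime) (hodd : p ≠ 2) (hq : q.Prime)
    (h1 : ∀ x y z : ZMod q, x ^ p + y ^ p + z ^ p = 0 → x = 0 ∨ y = 0 ∨ z = 0)
    (h2 : ∀ x : ZMod q, x ^ p ≠ (p : ZMod q)) : CaseI p := by
  intro a b c hdvd heq
  have hpodd : Odd p := hp.odd_of_ne_two hodd
  have ha0 : a ≠ 0 := by rintro rfl; simp at hdvd
  set d : ℤ := (Int.gcd a b : ℤ) with hd
  have hd0 : d ≠ 0 := by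
    rw [hd]; intro h0
    exact ha0 (Int.gcd_eq_zero_iff.mp (by exact_mod_cast h0)).1
  obtain ⟨a', ha'⟩ : d ∣ a := Int.gcd_dvd_left ..
  obtain ⟨b', hb'⟩ : d ∣ b := Int.gcd_dvd_right ..
  have hdc : d ∣ c := by
    have : d ^ p ∣ c ^ p := by
      rw [← heq, ha', hb']; exact ⟨a' ^ p + b' ^ p, by ring⟩
    exact (Int.pow_dvd_pow_iff hp.ne_zero).mp this
  obtain ⟨c', hc'⟩ := hdc
  have heq' : a' ^ p + b' ^ p = c' ^ p := by
    have : d ^ p * (a' ^ p + b' ^ p) = d ^ p * c' ^ p := by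
      rw [ha', hb', hc'] at heq; linear_combination heq
    exact mul_left_cancel₀ (pow_ne_zero p hd0) this
  have hcop : IsCoprime a' b' := by
    rw [Int.isCoprime_iff_gcd_eq_one]
    have h3 : Int.gcd a b = Int.gcd a b * Int.gcd a' b' := by
      conv_lhs => rw [ha', hb', Int.gcd_mul_left]
      simp [hd]
    have h4 : 0 < Int.gcd a b := Int.gcd_pos_of_ne_zero_left _ ha0
    nlinarith [Nat.eq_of_mul_eq_mul_left h4 (by omega : Int.gcd a b * Int.gcd a' b' = Int.gcd a b * 1)]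
  have hpa' : ¬ (p : ℤ) ∣ a' := fun h => hdvd (by
    rw [ha']; exact Dvd.dvd.mul_right (Dvd.dvd.mul_right (Dvd.dvd.mul_left h d) b) c)
  have hpb' : ¬ (p : ℤ) ∣ b' := fun h => hdvd (by
    rw [hb']; exact Dvd.dvd.mul_right (Dvd.dvd.mul_left (Dvd.dvd.mul_left h d) a) c)
  have hpc' : ¬ (p : ℤ) ∣ -c' := fun h => hdvd (by
    rw [hc']; exact Dvd.dvd.mul_left (Dvd.dvd.mul_left ((dvd_neg).mp h) d) (a * b))
  have hsum : a' ^ p + b' ^ p + (-c') ^ p = 0 := by rw [hpodd.neg_pow, heq']; ring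
  have hbc : IsCoprime b' (-c') := by
    apply isCoprime_of_forall_prime
    intro r hr hr1 hr2
    have hr3 : (r : ℤ) ∣ a' ^ p := by
      have : a' ^ p = c' ^ p - b' ^ p := by linarith
      rw [this]
      exact dvd_sub (dvd_pow ((dvd_neg).mp hr2) hp.ne_zero) (dvd_pow hr1 hp.ne_zero)
    exact not_prime_dvd_of_isCoprime hcop hr (Int.Prime.dvd_pow' hr hr3) hr1
  have hca : IsCoprime (-c') a' := by
    apply isCoprime_of_forall_prime
    intro r hr hr1 hr2
    have hr3 : (r : ℤ) ∣ b' ^ p := by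
      have : b' ^ p = c' ^ p - a' ^ p := by linarith
      rw [this]
      exact dvd_sub (dvd_pow ((dvd_neg).mp hr1) hp.ne_zero) (dvd_pow hr2 hp.ne_zero)
    exact not_prime_dvd_of_isCoprime hcop hr hr2 (Int.Prime.dvd_pow' hr hr3)
  have hmod := h1 (a' : ZMod q) (b' : ZMod q) ((-c' : ℤ) : ZMod q) (by
    have := congrArg (Int.cast : ℤ → ZMod q) hsum
    simpa using this)
  rcases hmod with h | h | h
  · exact germain_core hp hodd hq h1 h2 hcop hbc hca hsum hpa' hpb' hpc'
      ((ZMod.intCast_zmod_eq_zero_iff_dvd a' q).mp h)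
  · exact germain_core hp hodd hq h1 h2 hbc hca hcop (by linarith) hpb' hpc' hpa'
      ((ZMod.intCast_zmod_eq_zero_iff_dvd b' q).mp h)
  · exact germain_core hp hodd hq h1 h2 hca hcop hbc (by linarith) hpc' hpa' hpb'
      ((ZMod.intCast_zmod_eq_zero_iff_dvd (-c') q).mp h)

/-! ### Instances -/

lemma germain_h1_of {q p : ℕ} (S : Finset (ZMod q))
    (hA : ∀ x : ZMod q, x = 0 ∨ x ^ p ∈ S)
    (hB : ∀ u ∈ S, ∀ v ∈ S, ∀ w ∈ S, u + v + w ≠ 0) :
    ∀ x y z : ZMod q, x ^ p + y ^ p + z ^ p = 0 → x = 0 ∨ y = 0 ∨ z = 0 := by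
  intro x y z h
  by_contra hne
  push Not at hne
  exact hB _ ((hA x).resolve_left hne.1) _ ((hA y).resolve_left hne.2.1) _
    ((hA z).resolve_left hne.2.2) h

set_option maxRecDepth 100000 in
theorem caseI_five : CaseI 5 :=
  germain (q := 11) (by norm_num) (by norm_num) (by norm_num)
    (germain_h1_of ({1, -1} : Finset (ZMod 11)) (by decide) (by decide)) (by decide)

set_option maxRecDepth 100000 in
theorem caseI_seven : CaseI 7 :=
  germain (q := 29) (by norm_num) (by norm_num) (by norm_num)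
    (germain_h1_of ({1, -1, 12, -12} : Finset (ZMod 29)) (by decide) (by decide)) (by decide)

set_option maxRecDepth 100000 in
theorem caseI_eleven : CaseI 11 :=
  germain (q := 23) (by norm_num) (by norm_num) (by norm_num)
    (germain_h1_of ({1, -1} : Finset (ZMod 23)) (by decide) (by decide)) (by decide)

set_option maxRecDepth 100000 in
theorem caseI_thirteen : CaseI 13 :=
  germain (q := 53) (by norm_num) (by norm_num) (by norm_num)
    (germain_h1_of ({1, -1, 23, -23} : Finset (ZMod 53)) (by decide) (by decide)) (by decide)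

end Fermat.Agent.Kummer
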