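import Mathlib.NumberTheory.NumberField.Cyclotomic.Ideal
import Mathlib.NumberTheory.FLT.Three
import Fermat.Agent.Lib.Kummer.Defs

/-!
# Case II of Fermat's Last Theorem for a prime `p ≥ 5`, assuming that `ℤ[ζ_p]` is a PID and
Kummer's lemma
-/

set_option autoImplicit false

open NumberField Finset

namespace Fermat.Agent.Kummer

section prelim

variable {p : ℕ} [hp : Fact p.Prime] {K : Type*} [Field K] [NumberField K]
  [hK : IsCyclotomicExtension {p} ℚ K] {ζ : K} (hζ : IsPrimitiveRoot ζ p)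

omit [NumberField K] hK in
theorem zeta_pow_prime : hζ.toInteger ^ p = 1 := hζ.toInteger_isPrimitiveRoot.pow_eq_one

omit [NumberField K] hK in
theorem isUnit_zeta : IsUnit hζ.toInteger :=
  IsUnit.of_pow_eq_one (zeta_pow_prime hζ) hp.out.ne_zero

omit [NumberField K] hK in
/-- `x ^ p + y ^ p` is the product of the `x + ζ ^ i * y`. -/
theorem pow_add_pow_eq_prod (hodd : p ≠ 2) (x y : 𝓞 K) :
    x ^ p + y ^ p = ∏ i ∈ range p, (x + hζ.toInteger ^ i * y) := by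
  classical
  have hζ' := hζ.toInteger_isPrimitiveRoot
  rw [hζ'.pow_add_pow_eq_prod_add_mul x y (hp.out.odd_of_ne_two hodd)]
  have himg : (range p).image (fun i => hζ.toInteger ^ i) = Polynomial.nthRootsFinset p (1 : 𝓞 K) := by
    apply Finset.eq_of_subset_of_card_le
    · intro η hη
      obtain ⟨i, -, rfl⟩ := Finset.mem_image.mp hη
      rw [Polynomial.mem_nthRootsFinset hp.out.pos, ← pow_mul, mul_comm, pow_mul, hζ'.pow_eq_one,
        one_pow]
    · rw [hζ'.card_nthRootsFinset, Finset.card_image_of_injOn, Finset.card_range]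
      intro i hi j hj hij
      exact hζ'.pow_inj (Finset.mem_range.mp hi) (Finset.mem_range.mp hj) hij
  rw [← himg, Finset.prod_image]
  intro i hi j hj hij
  exact hζ'.pow_inj (Finset.mem_range.mp hi) (Finset.mem_range.mp hj) hij

omit [NumberField K] hK in
/-- For `i ≠ j` below `p`, `ζ ^ i - ζ ^ j` is associated to `ζ - 1`. -/
theorem associated_pow_sub_pow {i j : ℕ} (hi : i < p) (hj : j < p) (hij : i ≠ j) :
    Associated (hζ.toInteger ^ i - hζ.toInteger ^ j) (hζ.toInteger - 1) := by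
  have hζ' := hζ.toInteger_isPrimitiveRoot
  have key : ∀ {i j : ℕ}, i < p → j < i →
      Associated (hζ.toInteger ^ i - hζ.toInteger ^ j) (hζ.toInteger - 1) := by
    intro i j hi hji
    have hcop : (i - j).Coprime p :=
      (Nat.coprime_of_lt_prime (by omega) (by omega) hp.out).symm
    have h1 := (hζ'.associated_sub_one_pow_sub_one_of_coprime hcop).symm
    have h2 : hζ.toInteger ^ i - hζ.toInteger ^ j
        = hζ.toInteger ^ j * (hζ.toInteger ^ (i - j) - 1) := by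
      rw [mul_sub, ← pow_add, mul_one]
      congr 2
      omega
    rw [h2]
    exact (associated_isUnit_mul_left_iff ((isUnit_zeta hζ).pow j)).mpr h1
  rcases lt_or_gt_of_ne hij with h | h
  · have := key hj h
    rw [← neg_sub]
    exact this.neg_left
  · exact key hi h

theorem card_quot_lam (hodd : p ≠ 2) :
    Nat.card (𝓞 K ⧸ Ideal.span {hζ.toInteger - 1}) = p := by
  rw [hζ.card_quotient_toInteger_sub_one, hζ.norm_toInteger_sub_one_of_prime_ne_two' hodd]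
  simp

/-- `1 + ζ` is a unit. -/
theorem isUnit_one_add_zeta (hodd : p ≠ 2) : IsUnit (1 + hζ.toInteger) := by
  have hζ' := hζ.toInteger_isPrimitiveRoot
  have hcop : (2 : ℕ).Coprime p :=
    (Nat.coprime_primes Nat.prime_two hp.out).mpr (Ne.symm hodd)
  obtain ⟨u, hu⟩ := hζ'.associated_sub_one_pow_sub_one_of_coprime hcop
  have hne : hζ.toInteger - 1 ≠ 0 := hζ.zeta_sub_one_prime'.ne_zero
  have : (1 + hζ.toInteger) = u := by
    apply mul_left_cancel₀ hne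
    rw [hu]
    ring
  rw [this]
  exact u.isUnit

/-- `p`-th powers are congruent to rational integers modulo `p`. -/
theorem exists_int_dvd_pow_sub (x : 𝓞 K) : ∃ n : ℤ, (p : 𝓞 K) ∣ x ^ p - (n : 𝓞 K) := by
  have hζ := IsCyclotomicExtension.zeta_spec p ℚ K
  have htop : Algebra.adjoin ℤ ({hζ.toInteger} : Set (𝓞 K)) = ⊤ := by
    rw [← hζ.integralPowerBasis_gen]
    exact hζ.integralPowerBasis.adjoin_gen_eq_top
  have hx : x ∈ Algebra.adjoin ℤ ({hζ.toInteger} : Set (𝓞 K)) := by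
    rw [htop]
    exact Algebra.mem_top
  induction hx using Algebra.adjoin_induction with
  | mem y hy =>
    rw [Set.mem_singleton_iff.mp hy, zeta_pow_prime hζ]
    exact ⟨1, by simp⟩
  | algebraMap r =>
    refine ⟨r ^ p, ?_⟩
    simp
  | add y z _ _ hy hz =>
    obtain ⟨n, hn⟩ := hy
    obtain ⟨m, hm⟩ := hz
    obtain ⟨r, hr⟩ := exists_add_pow_prime_eq hp.out y z
    refine ⟨n + m, ?_⟩
    rw [hr]
    have : y ^ p + z ^ p + (p : 𝓞 K) * y * z * r - ((n + m : ℤ) : 𝓞 K)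
        = (y ^ p - n) + (z ^ p - m) + (p : 𝓞 K) * (y * z * r) := by
      push_cast
      ring
    rw [this]
    exact dvd_add (dvd_add hn hm) (dvd_mul_right _ _)
  | mul y z _ _ hy hz =>
    obtain ⟨n, hn⟩ := hy
    obtain ⟨m, hm⟩ := hz
    refine ⟨n * m, ?_⟩
    have : (y * z) ^ p - ((n * m : ℤ) : 𝓞 K) = (y ^ p - n) * z ^ p + n * (z ^ p - m) := by
      push_cast
      ring
    rw [this]
    exact dvd_add (dvd_mul_of_dvd_left hn _) (dvd_mul_of_dvd_right hm _)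

end prelim

section descent

variable {p : ℕ} [hp : Fact p.Prime] {K : Type*} [Field K] [NumberField K]
  [hK : IsCyclotomicExtension {p} ℚ K] {ζ : K} (hζ : IsPrimitiveRoot ζ p)

local notation3 "λ" => hζ.toInteger - 1

theorem lam_dvd_add_zeta_pow_mul (hodd : p ≠ 2) {x y : 𝓞 K} (h : λ ∣ x ^ p + y ^ p) (i : ℕ) :
    λ ∣ x + hζ.toInteger ^ i * y := by
  have hlam := hζ.zeta_sub_one_prime'
  rw [pow_add_pow_eq_prod hζ hodd] at h
  obtain ⟨i0, -, hi0⟩ := hlam.exists_mem_finset_dvd h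
  have e : x + hζ.toInteger ^ i * y
      = (x + hζ.toInteger ^ i0 * y) + ((hζ.toInteger ^ i - 1) - (hζ.toInteger ^ i0 - 1)) * y := by
    ring
  rw [e]
  have h1 : ∀ k : ℕ, λ ∣ hζ.toInteger ^ k - 1 := fun k => by
    simpa using sub_dvd_pow_sub_pow hζ.toInteger 1 k
  exact dvd_add hi0 (dvd_mul_of_dvd_left (dvd_sub (h1 i) (h1 i0)) _)

theorem exists_lam_sq_dvd (hodd : p ≠ 2) {x y : 𝓞 K} (hy : ¬ λ ∣ y) (h : λ ∣ x ^ p + y ^ p) :
    ∃ i < p, λ ^ 2 ∣ x + hζ.toInteger ^ i * y := by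
  have hlam := hζ.zeta_sub_one_prime'
  have hall := lam_dvd_add_zeta_pow_mul hζ hodd h
  choose t ht using hall
  have : Finite (𝓞 K ⧸ Ideal.span {λ}) := hζ.finite_quotient_span_sub_one'
  let f : Fin p → 𝓞 K ⧸ Ideal.span {λ} := fun i => Ideal.Quotient.mk _ (t i)
  have hinj : Function.Injective f := by
    intro i j hij
    by_contra hne
    have hne' : (i : ℕ) ≠ j := fun h => hne (Fin.ext h)
    obtain ⟨ω, hω⟩ := associated_pow_sub_pow hζ i.2 j.2 hne'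
    have hd : λ ∣ t i - t j := by
      rw [← Ideal.mem_span_singleton, ← Ideal.Quotient.eq]
      exact hij
    have e : λ * (t i - t j) = (hζ.toInteger ^ (i : ℕ) - hζ.toInteger ^ (j : ℕ)) * y := by
      rw [mul_sub, ← ht, ← ht]
      ring
    have e2 : (t i - t j) * ω = y := by
      apply mul_left_cancel₀ hlam.ne_zero
      rw [← mul_assoc, e, mul_right_comm, hω]
    exact hy (e2 ▸ dvd_mul_of_dvd_left hd _)
  have hbij := hinj.bijective_of_nat_card_le (by rw [card_quot_lam hζ hodd, Nat.card_fin])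
  obtain ⟨i, hi⟩ := hbij.2 0
  refine ⟨i, i.2, ?_⟩
  have hd : λ ∣ t i := by
    rw [← Ideal.mem_span_singleton, ← Ideal.Quotient.eq_zero_iff_mem]
    exact hi
  rw [ht, pow_two]
  exact mul_dvd_mul_left _ hd

theorem descent_step_aux (hp5 : 5 ≤ p) [IsPrincipalIdealRing (𝓞 K)] (hKL : KummerLemma p K)
    {m : ℕ} (hm : 1 ≤ m) {x y z : 𝓞 K} {u : (𝓞 K)ˣ} (hy : ¬ λ ∣ y) (hz : ¬ λ ∣ z)
    (hxy : IsCoprime x y) (H : x ^ p + y ^ p = u * (λ ^ m * z) ^ p) (hsq : λ ^ 2 ∣ x + y) :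
    2 ≤ m ∧ ∃ (x' y' z' : 𝓞 K) (u' : (𝓞 K)ˣ), ¬ λ ∣ y' ∧ ¬ λ ∣ z' ∧ IsCoprime x' y' ∧
      x' ^ p + y' ^ p = u' * (λ ^ (m - 1) * z') ^ p := by
  have hodd : p ≠ 2 := by omega
  have hlam := hζ.zeta_sub_one_prime'
  have hp0 : p ≠ 0 := hp.out.ne_zero
  have hppos : 0 < p := hp.out.pos
  have hdvd : λ ∣ x ^ p + y ^ p := by
    rw [H]
    exact Dvd.dvd.mul_left (dvd_pow (dvd_mul_of_dvd_left (dvd_pow_self _ (by omega)) _) hp0) _
  have hall := lam_dvd_add_zeta_pow_mul hζ hodd hdvd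
  choose t ht using hall
  have ht0 : x + y = λ * t 0 := by simpa using ht 0
  have hlt0 : λ ∣ t 0 := by
    rw [ht0, pow_two] at hsq
    exact (mul_dvd_mul_iff_left hlam.ne_zero).mp hsq
  -- the basic relations between the `t i`
  have hrel : ∀ i j, i < p → j < p → i ≠ j → ∃ ω : (𝓞 K)ˣ,
      (t i - t j) * ω = y ∧ (hζ.toInteger ^ i * t j - hζ.toInteger ^ j * t i) * ω = x := by
    intro i j hi hj hij
    obtain ⟨ω, hω⟩ := associated_pow_sub_pow hζ hi hj hij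
    refine ⟨ω, ?_, ?_⟩
    · have e : λ * (t i - t j) = (hζ.toInteger ^ i - hζ.toInteger ^ j) * y := by
        rw [mul_sub, ← ht, ← ht]
        ring
      apply mul_left_cancel₀ hlam.ne_zero
      rw [← mul_assoc, e, mul_right_comm, hω]
    · have e : λ * (hζ.toInteger ^ i * t j - hζ.toInteger ^ j * t i)
          = (hζ.toInteger ^ i - hζ.toInteger ^ j) * x := by
        rw [mul_sub, mul_left_comm, ← ht, mul_left_comm, ← ht]
        ring
      apply mul_left_cancel₀ hlam.ne_zero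
      rw [← mul_assoc, e, mul_right_comm, hω]
  have hti : ∀ i, 0 < i → i < p → ¬ λ ∣ t i := by
    intro i hi0 hip hd
    obtain ⟨ω, hω, -⟩ := hrel i 0 hip hppos hi0.ne'
    exact hy (hω ▸ dvd_mul_of_dvd_left (dvd_sub hd hlt0) _)
  have hcop : ∀ i j, i < p → j < p → i ≠ j → IsCoprime (t i) (t j) := by
    intro i j hi hj hij
    obtain ⟨ω, ey, ex⟩ := hrel i j hi hj hij
    obtain ⟨a, b, hab⟩ := hxy
    refine ⟨b * ω - a * ω * hζ.toInteger ^ j, a * ω * hζ.toInteger ^ i - b * ω, ?_⟩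
    linear_combination hab + a * ex + b * ey
  -- the product of the `t i`
  have hprod : ∏ i ∈ range p, t i = u * (λ ^ (m - 1) * z) ^ p := by
    have h1 : λ ^ p * ∏ i ∈ range p, t i = λ ^ p * (u * (λ ^ (m - 1) * z) ^ p) := by
      calc λ ^ p * ∏ i ∈ range p, t i = ∏ i ∈ range p, (λ * t i) := by
            rw [Finset.prod_mul_distrib, Finset.prod_const, Finset.card_range]
        _ = ∏ i ∈ range p, (x + hζ.toInteger ^ i * y) :=
            Finset.prod_congr rfl fun i _ => (ht i).symm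
        _ = x ^ p + y ^ p := (pow_add_pow_eq_prod hζ hodd x y).symm
        _ = u * (λ ^ m * z) ^ p := H
        _ = λ ^ p * (u * (λ ^ (m - 1) * z) ^ p) := by
            obtain ⟨k, rfl⟩ : ∃ k, m = k + 1 := ⟨m - 1, by omega⟩
            simp only [Nat.add_sub_cancel]
            generalize hζ.toInteger - 1 = l
            ring
    exact mul_left_cancel₀ (pow_ne_zero p hlam.ne_zero) h1
  have h0mem : 0 ∈ range p := Finset.mem_range.mpr hppos
  set T := ∏ i ∈ (range p).erase 0, t i with hT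
  have hT0 : t 0 * T = u * (λ ^ (m - 1) * z) ^ p := by
    rw [hT, Finset.mul_prod_erase _ _ h0mem, hprod]
  have hlamT : ¬ λ ∣ T := by
    intro h
    obtain ⟨i, hi, hd⟩ := hlam.exists_mem_finset_dvd h
    rw [Finset.mem_erase, Finset.mem_range] at hi
    exact hti i (Nat.pos_of_ne_zero hi.1) hi.2 hd
  have hpow : λ ^ ((m - 1) * p) ∣ t 0 := by
    refine hlam.pow_dvd_of_dvd_mul_right _ hlamT ?_
    rw [hT0, mul_pow, ← pow_mul]
    exact ⟨u * z ^ p, by ring⟩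
  obtain ⟨s, hs⟩ := hpow
  have hsT : s * T = u * z ^ p := by
    apply mul_left_cancel₀ (pow_ne_zero ((m - 1) * p) hlam.ne_zero)
    rw [← mul_assoc, ← hs, hT0, mul_pow, ← pow_mul]
    ring
  have hlams : ¬ λ ∣ s := by
    intro h
    have h' : λ ∣ u * z ^ p := hsT ▸ dvd_mul_of_dvd_left h T
    rcases hlam.dvd_or_dvd h' with h1 | h1
    · exact hlam.not_isUnit (isUnit_of_dvd_unit h1 u.isUnit)
    · exact hz (hlam.dvd_of_dvd_pow h1)
  have hm2 : 2 ≤ m := by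
    by_contra hlt
    have hm1 : m = 1 := by omega
    rw [hm1] at hs
    simp only [Nat.sub_self, zero_mul, pow_zero, one_mul] at hs
    exact hlams (hs ▸ hlt0)
  refine ⟨hm2, ?_⟩
  -- `p`-th powers
  have hcops : ∀ i, 0 < i → i < p → IsCoprime s (t i) := by
    intro i hi0 hip
    have := hcop 0 i hppos hip hi0.ne
    rw [hs] at this
    exact this.of_mul_left_right
  have hcopsT : IsCoprime s T := by
    refine IsCoprime.prod_right fun i hi => ?_
    rw [Finset.mem_erase, Finset.mem_range] at hi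
    exact hcops i (Nat.pos_of_ne_zero hi.1) hi.2
  obtain ⟨ρ₀, ε₀, hρ₀⟩ := exists_associated_pow_of_associated_pow_mul hcopsT (c := z) (k := p)
    ⟨u, by rw [hsT, mul_comm]⟩
  have hpow_i : ∀ i, 0 < i → i < p → ∃ ρ, Associated (ρ ^ p) (t i) := by
    intro i hi0 hip
    have himem : i ∈ (range p).erase 0 :=
      Finset.mem_erase.mpr ⟨hi0.ne', Finset.mem_range.mpr hip⟩
    have hTi' : t i * ∏ j ∈ ((range p).erase 0).erase i, t j = T :=
      Finset.mul_prod_erase _ _ himem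
    have hc2 : IsCoprime (t i) (∏ j ∈ ((range p).erase 0).erase i, t j) := by
      refine IsCoprime.prod_right fun j hj => ?_
      rw [Finset.mem_erase, Finset.mem_erase, Finset.mem_range] at hj
      exact hcop i j hip hj.2.2 (Ne.symm hj.1)
    refine exists_associated_pow_of_associated_pow_mul ((hcops i hi0 hip).symm.mul_right hc2)
      (c := z) (k := p) ⟨u, ?_⟩
    rw [mul_comm, ← hsT, ← hTi']
    ring
  have h1p : 1 < p := by omega
  obtain ⟨ρ₁, ε₁, hρ₁⟩ := hpow_i 1 one_pos h1p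
  obtain ⟨ρ₂, ε₂, hρ₂⟩ := hpow_i (p - 1) (by omega) (by omega)
  -- the three-term relation
  have hz1 : hζ.toInteger * hζ.toInteger ^ (p - 1) = 1 := by
    rw [← pow_succ', Nat.sub_add_cancel hp.out.one_le]
    exact zeta_pow_prime hζ
  have hrel3 : t 1 + hζ.toInteger * t (p - 1) = (1 + hζ.toInteger) * t 0 := by
    apply mul_left_cancel₀ hlam.ne_zero
    linear_combination (-1 : 𝓞 K) * ht 1 - hζ.toInteger * ht (p - 1)
      + (1 + hζ.toInteger) * ht 0 + y * hz1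
  have E0 : ρ₁ ^ p * ε₁ + hζ.toInteger * (ρ₂ ^ p * ε₂)
      = (1 + hζ.toInteger) * (λ ^ ((m - 1) * p) * (ρ₀ ^ p * ε₀)) := by
    rw [hρ₁, hρ₂, hρ₀, ← hs]
    exact hrel3
  set ζu : (𝓞 K)ˣ := (isUnit_zeta hζ).unit with hζu
  set w : (𝓞 K)ˣ := (isUnit_one_add_zeta hζ hodd).unit with hw
  have hζu' : (ζu : 𝓞 K) = hζ.toInteger := IsUnit.unit_spec _
  have hw' : (w : 𝓞 K) = 1 + hζ.toInteger := IsUnit.unit_spec _
  set η : (𝓞 K)ˣ := ε₁⁻¹ * ζu * ε₂ with hη
  set ε' : (𝓞 K)ˣ := ε₁⁻¹ * w * ε₀ with hε'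
  have hinv : ((ε₁⁻¹ : (𝓞 K)ˣ) : 𝓞 K) * (ε₁ : 𝓞 K) = 1 := Units.inv_mul ε₁
  have E : ρ₁ ^ p + (η : 𝓞 K) * ρ₂ ^ p = (ε' : 𝓞 K) * (λ ^ (m - 1) * ρ₀) ^ p := by
    rw [hη, hε', Units.val_mul, Units.val_mul, Units.val_mul, Units.val_mul, hζu', hw']
    linear_combination ((ε₁⁻¹ : (𝓞 K)ˣ) : 𝓞 K) * E0 - ρ₁ ^ p * hinv
  -- non-divisibility by `λ`
  have hlamρ₂ : ¬ λ ∣ ρ₂ := fun h =>
    hti (p - 1) (by omega) (by omega) (hρ₂ ▸ dvd_mul_of_dvd_left (dvd_pow h hp0) _)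
  have hlamρ₀ : ¬ λ ∣ ρ₀ := fun h => hlams (hρ₀ ▸ dvd_mul_of_dvd_left (dvd_pow h hp0) _)
  -- `η` is congruent to an integer modulo `p`
  have hpdvd : (p : 𝓞 K) ∣ ρ₁ ^ p + (η : 𝓞 K) * ρ₂ ^ p := by
    rw [E, mul_pow, ← pow_mul]
    refine Dvd.dvd.mul_left (Dvd.dvd.mul_right ?_ _) _
    refine (IsCyclotomicExtension.Rat.associated_zeta_sub_one_pow_prime p hζ).symm.dvd.trans
      (pow_dvd_pow _ ?_)
    calc p - 1 ≤ p := Nat.sub_le _ _
      _ = 1 * p := (one_mul p).symm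
      _ ≤ (m - 1) * p := Nat.mul_le_mul_right p (by omega)
  obtain ⟨a, b, hab⟩ := IsCyclotomicExtension.Rat.isCoprime_of_not_zeta_sub_one_dvd p hζ hlamρ₂
  have hb1 : (p : 𝓞 K) ∣ (b * ρ₂) ^ p - 1 := by
    have h1 : (p : 𝓞 K) ∣ b * ρ₂ - 1 := ⟨-a, by linear_combination hab⟩
    have h2 := sub_dvd_pow_sub_pow (b * ρ₂) 1 p
    rw [one_pow] at h2
    exact h1.trans h2
  obtain ⟨n, hn⟩ := exists_int_dvd_pow_sub (p := p) (b * ρ₁)
  have hηn : (p : 𝓞 K) ∣ (η : 𝓞 K) - ((-n : ℤ) : 𝓞 K) := by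
    have e : (η : 𝓞 K) - ((-n : ℤ) : 𝓞 K) = -(η : 𝓞 K) * ((b * ρ₂) ^ p - 1)
        + b ^ p * (ρ₁ ^ p + (η : 𝓞 K) * ρ₂ ^ p) - ((b * ρ₁) ^ p - (n : 𝓞 K)) := by
      push_cast
      ring
    rw [e]
    exact dvd_sub (dvd_add (Dvd.dvd.mul_left hb1 _) (Dvd.dvd.mul_left hpdvd _)) hn
  obtain ⟨v, hv⟩ := hKL η ⟨-n, hηn⟩
  refine ⟨ρ₁, v * ρ₂, ρ₀, ε', ?_, hlamρ₀, ?_, ?_⟩
  · exact fun h => hlamρ₂ ((Units.dvd_mul_left (u := v)).mp h)
  · have h1 := hcop 1 (p - 1) h1p (by omega) (by omega)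
    rw [← hρ₁, ← hρ₂] at h1
    have h2 : IsCoprime (ρ₁ ^ p) (ρ₂ ^ p) := h1.of_mul_left_left.of_mul_right_left
    have h3 : IsCoprime ρ₁ ρ₂ := (IsCoprime.pow_iff hppos hppos).mp h2
    exact (isCoprime_mul_unit_left_right v.isUnit ρ₁ ρ₂).mpr h3
  · rw [mul_pow, ← Units.val_pow_eq_pow_val, ← hv]
    exact E

theorem descent_step (hp5 : 5 ≤ p) [IsPrincipalIdealRing (𝓞 K)] (hKL : KummerLemma p K)
    {m : ℕ} (hm : 1 ≤ m) {x y z : 𝓞 K} {u : (𝓞 K)ˣ} (hy : ¬ λ ∣ y) (hz : ¬ λ ∣ z)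
    (hxy : IsCoprime x y) (H : x ^ p + y ^ p = u * (λ ^ m * z) ^ p) :
    2 ≤ m ∧ ∃ (x' y' z' : 𝓞 K) (u' : (𝓞 K)ˣ), ¬ λ ∣ y' ∧ ¬ λ ∣ z' ∧ IsCoprime x' y' ∧
      x' ^ p + y' ^ p = u' * (λ ^ (m - 1) * z') ^ p := by
  have hodd : p ≠ 2 := by omega
  have hp0 : p ≠ 0 := hp.out.ne_zero
  have hdvd : λ ∣ x ^ p + y ^ p := by
    rw [H]
    exact Dvd.dvd.mul_left (dvd_pow (dvd_mul_of_dvd_left (dvd_pow_self _ (by omega)) _) hp0) _
  obtain ⟨i0, -, hsq⟩ := exists_lam_sq_dvd hζ hodd hy hdvd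
  have hu0 : IsUnit (hζ.toInteger ^ i0) := (isUnit_zeta hζ).pow i0
  refine descent_step_aux hζ hp5 hKL hm (y := hζ.toInteger ^ i0 * y) (u := u) ?_ hz ?_ ?_ hsq
  · exact fun h => hy ((hu0.dvd_mul_left).mp h)
  · exact (isCoprime_mul_unit_left_right hu0 x y).mpr hxy
  · rw [mul_pow, ← pow_mul, mul_comm i0 p, pow_mul, zeta_pow_prime hζ, one_pow, one_mul, H]

theorem no_solution (hp5 : 5 ≤ p) [IsPrincipalIdealRing (𝓞 K)] (hKL : KummerLemma p K) :
    ∀ m : ℕ, 1 ≤ m → ∀ (x y z : 𝓞 K) (u : (𝓞 K)ˣ), ¬ λ ∣ y → ¬ λ ∣ z → IsCoprime x y →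
      x ^ p + y ^ p ≠ u * (λ ^ m * z) ^ p := by
  intro m
  induction m with
  | zero => intro h; omega
  | succ m ih =>
    intro _ x y z u hy hz hxy H
    obtain ⟨hm2, x', y', z', u', hy', hz', hxy', H'⟩ :=
      descent_step hζ hp5 hKL (by omega) hy hz hxy H
    exact ih (by omega) x' y' z' u' hy' hz' hxy' (by simpa using H')

/-- The generalised Fermat equation in `𝓞 K` has no solution. -/
theorem genFLT (hp5 : 5 ≤ p) [IsPrincipalIdealRing (𝓞 K)] (hKL : KummerLemma p K)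
    (a b c : 𝓞 K) (u : (𝓞 K)ˣ) (hc : c ≠ 0) (hb : ¬ λ ∣ b) (hcdvd : λ ∣ c)
    (hab : IsCoprime a b) : a ^ p + b ^ p ≠ u * c ^ p := by
  have hlam := hζ.zeta_sub_one_prime'
  have hfin : FiniteMultiplicity (hζ.toInteger - 1) c :=
    FiniteMultiplicity.of_not_isUnit hlam.not_isUnit hc
  obtain ⟨z, hz, hlz⟩ := hfin.exists_eq_pow_mul_and_not_dvd
  have hm : 1 ≤ multiplicity (hζ.toInteger - 1) c := by
    by_contra h
    have h0 : multiplicity (hζ.toInteger - 1) c = 0 := by omega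
    rw [h0, pow_zero, one_mul] at hz
    exact hlz (hz ▸ hcdvd)
  intro H
  rw [hz] at H
  exact no_solution hζ hp5 hKL _ hm a b z u hb hlz hab H

end descent

section integers

open Finset Int

variable {p : ℕ}

lemma dvd_b_of_dvd_a_of_gcd_eq_one_of_case2 (hp : p.Prime) (hodd : Odd p) {a b c : ℤ}
    (ha : a ≠ 0) (Hgcd : Finset.gcd {a, b, c} id = 1) (hpa : (p : ℤ) ∣ a)
    (HF : a ^ p + b ^ p + c ^ p = 0)
    (H : ∀ a b c : ℤ, c ≠ 0 → ¬ (p : ℤ) ∣ a → ¬ (p : ℤ) ∣ b → (p : ℤ) ∣ c → IsCoprime a b →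
      a ^ p + b ^ p ≠ c ^ p) :
    (p : ℤ) ∣ b := by
  have hpp : Prime (p : ℤ) := Nat.prime_iff_prime_int.mp hp
  have hbc : IsCoprime (-b) (-c) := by
    refine IsCoprime.neg_neg ?_
    rw [add_comm (a ^ p), add_assoc, add_comm (a ^ p), ← add_assoc] at HF
    refine isCoprime_of_gcd_eq_one_of_FLT ?_ HF
    convert Hgcd using 2
    rw [Finset.pair_comm, Finset.insert_comm]
  by_contra! hpb
  by_cases hpc : (p : ℤ) ∣ c
  · apply hpb
    rw [add_assoc, add_comm (b ^ p), ← add_assoc] at HF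
    exact dvd_c_of_prime_of_dvd_a_of_dvd_b_of_FLT hpp hpa hpc HF
  · refine H (-b) (-c) a ha (by simp [hpb]) (by simp [hpc]) hpa hbc ?_
    rw [hodd.neg_pow, hodd.neg_pow]
    linear_combination (-1 : ℤ) * HF

lemma flt_of_dvd_a_of_gcd_eq_one_of_case2 (hp : p.Prime) (hodd : Odd p) {a b c : ℤ}
    (ha : a ≠ 0) (hpa : (p : ℤ) ∣ a) (Hgcd : Finset.gcd {a, b, c} id = 1)
    (H : ∀ a b c : ℤ, c ≠ 0 → ¬ (p : ℤ) ∣ a → ¬ (p : ℤ) ∣ b → (p : ℤ) ∣ c → IsCoprime a b →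
      a ^ p + b ^ p ≠ c ^ p) :
    a ^ p + b ^ p + c ^ p ≠ 0 := by
  have hpp : Prime (p : ℤ) := Nat.prime_iff_prime_int.mp hp
  intro HF
  apply hpp.not_dvd_one
  rw [← Hgcd]
  refine dvd_gcd (fun x hx ↦ ?_)
  simp only [mem_insert, mem_singleton] at hx
  have hpb : (p : ℤ) ∣ b := dvd_b_of_dvd_a_of_gcd_eq_one_of_case2 hp hodd ha Hgcd hpa HF H
  rcases hx with hx | hx | hx
  · exact hx ▸ hpa
  · exact hx ▸ hpb
  · simpa [hx] using dvd_c_of_prime_of_dvd_a_of_dvd_b_of_FLT hpp hpa hpb HF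

/-- To prove Fermat's Last Theorem for an odd prime `p`, it is enough to treat case I and the
case where `p` divides only `c`. -/
theorem flt_of_caseI_of_dvd_only_c (hp : p.Prime) (hodd : Odd p) (hI : CaseI p)
    (H : ∀ a b c : ℤ, c ≠ 0 → ¬ (p : ℤ) ∣ a → ¬ (p : ℤ) ∣ b → (p : ℤ) ∣ c → IsCoprime a b →
      a ^ p + b ^ p ≠ c ^ p) :
    FermatLastTheoremFor p := by
  have hpp : Prime (p : ℤ) := Nat.prime_iff_prime_int.mp hp
  rw [fermatLastTheoremFor_iff_int]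
  refine fermatLastTheoremWith_of_fermatLastTheoremWith_coprime (fun a b c ha hb hc Hgcd hF ↦ ?_)
  by_cases h1 : (p : ℤ) ∣ a * b * c
  swap
  · exact hI a b c h1 hF
  rw [hpp.dvd_mul, hpp.dvd_mul] at h1
  rw [← sub_eq_zero, sub_eq_add_neg, ← hodd.neg_pow] at hF
  rcases h1 with (hpa | hpb) | hpc
  · refine flt_of_dvd_a_of_gcd_eq_one_of_case2 hp hodd ha hpa ?_ H hF
    simp only [← Hgcd, gcd_insert, gcd_singleton, id_eq, ← abs_eq_normalize, abs_neg]
  · rw [add_comm (a ^ p)] at hF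
    refine flt_of_dvd_a_of_gcd_eq_one_of_case2 hp hodd hb hpb ?_ H hF
    simp only [← Hgcd, insert_comm, gcd_insert, gcd_singleton, id_eq, ← abs_eq_normalize, abs_neg]
  · rw [add_comm _ ((-c) ^ p), ← add_assoc] at hF
    refine flt_of_dvd_a_of_gcd_eq_one_of_case2 hp hodd (neg_ne_zero.2 hc) (by simp [hpc])
      ?_ H hF
    rw [Finset.insert_comm (-c), Finset.pair_comm (-c) b]
    simp only [← Hgcd, gcd_insert, gcd_singleton, id_eq, ← abs_eq_normalize, abs_neg]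

end integers

/-- Fermat's Last Theorem for a prime `p ≥ 5` such that `ℤ[ζ_p]` is a PID, Kummer's lemma holds
for `p`, and case I holds for `p`. -/
theorem flt_of_pid_of_kummer {p : ℕ} [hp : Fact p.Prime] (hp5 : 5 ≤ p) (K : Type) [Field K]
    [NumberField K] [IsCyclotomicExtension {p} ℚ K] [IsPrincipalIdealRing (𝓞 K)]
    (hKL : KummerLemma p K) (hI : CaseI p) : FermatLastTheoremFor p := by
  have hodd : Odd p := hp.out.odd_of_ne_two (by omega)
  have hζ := IsCyclotomicExtension.zeta_spec p ℚ K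
  refine flt_of_caseI_of_dvd_only_c hp.out hodd hI fun a b c hc _ hb hpc hab h => ?_
  obtain ⟨x, hx⟩ := hpc
  refine genFLT hζ hp5 hKL (a : 𝓞 K) (b : 𝓞 K) (c : 𝓞 K) 1 (by simp [hc]) (fun hdvd ↦ hb ?_)
    ?_ ?_ ?_
  · exact (IsCyclotomicExtension.Rat.zeta_sub_one_dvd_intCast_iff' p hζ).mp hdvd
  · exact dvd_trans hζ.toInteger_sub_one_dvd_prime' ⟨x, by simp [hx]⟩
  · exact IsCoprime.intCast hab
  · simpa using mod_cast h

end Fermat.Agent.Kummer
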