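import Mathlib

/-!
# Kummer's descent ("second case") in an abstract principal ideal domain

`R` is a principal ideal domain, `ζ : R` a primitive `p`-th root of unity (`p` an odd prime),
`ζ - 1` is prime, `(ζ - 1)^(p-1)` is associated to `p`, every element is congruent to a
rational integer modulo `ζ - 1`, and Kummer's lemma holds (a unit congruent to an integer
modulo `p` is a `p`-th power).  Then `x ^ p + y ^ p = ε * ((ζ - 1) ^ m * z) ^ p` has no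
solution with `m ≥ 1`, `x, y, z` prime to `ζ - 1` and `x, y` coprime.
-/

set_option autoImplicit false
set_option linter.unusedSectionVars false
set_option linter.unusedVariables false

namespace Fermat.Agent.Kummer.Abs

open Finset

section basic

variable {R : Type*} [CommRing R] [IsDomain R] {p : ℕ} {ζ : R}

theorem lam_dvd_pow_sub_one (ζ : R) (k : ℕ) : ζ - 1 ∣ ζ ^ k - 1 := by
  simpa using sub_dvd_pow_sub_pow ζ 1 k

theorem lam_mul_geom (ζ : R) (k : ℕ) : (ζ - 1) * ∑ i ∈ range k, ζ ^ i = ζ ^ k - 1 :=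
  mul_geom_sum ζ k

theorem lam_dvd_geom_sub (ζ : R) (k : ℕ) : ζ - 1 ∣ (∑ i ∈ range k, ζ ^ i) - (k : R) := by
  have : (∑ i ∈ range k, ζ ^ i) - (k : R) = ∑ i ∈ range k, (ζ ^ i - 1) := by
    simp [Finset.sum_sub_distrib]
  rw [this]
  exact Finset.dvd_sum fun i _ => lam_dvd_pow_sub_one ζ i

theorem lam_dvd_p (hp : p.Prime) (hlp : Associated ((ζ - 1) ^ (p - 1)) (p : R)) :
    ζ - 1 ∣ (p : R) :=
  (dvd_pow_self _ (by have := hp.two_le; omega)).trans hlp.dvd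

theorem p_dvd_lam_pow (hlp : Associated ((ζ - 1) ^ (p - 1)) (p : R)) {n : ℕ} (hn : p - 1 ≤ n) :
    (p : R) ∣ (ζ - 1) ^ n :=
  hlp.symm.dvd.trans (pow_dvd_pow _ hn)

/-- an integer divisible by `ζ - 1` is divisible by `p` -/
theorem int_dvd_of_lam_dvd (hp : p.Prime) (hl : Prime (ζ - 1)) (hlp : ζ - 1 ∣ (p : R)) {n : ℤ}
    (h : ζ - 1 ∣ (n : R)) : (p : ℤ) ∣ n := by
  by_contra hn
  have hcop : IsCoprime (p : ℤ) n :=
    (Nat.prime_iff_prime_int.mp hp).coprime_iff_not_dvd.mpr hn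
  obtain ⟨a, b, hab⟩ := hcop
  have h1 : (a : R) * (p : R) + (b : R) * (n : R) = 1 := by exact_mod_cast congrArg (Int.cast : ℤ → R) hab
  have h2 : ζ - 1 ∣ (a : R) * (p : R) + (b : R) * (n : R) :=
    dvd_add (Dvd.dvd.mul_left hlp _) (Dvd.dvd.mul_left h _)
  rw [h1] at h2
  exact hl.not_dvd_one h2

/-- `p`-th powers are congruent to rational integers modulo `p` -/
theorem exists_int_pow_p (hp : p.Prime) (hlp : Associated ((ζ - 1) ^ (p - 1)) (p : R))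
    (hres : ∀ x : R, ∃ n : ℤ, (ζ - 1) ∣ x - n) (x : R) : ∃ n : ℤ, (p : R) ∣ x ^ p - n := by
  obtain ⟨a, y, hy⟩ := hres x
  obtain ⟨r, hr⟩ := exists_add_pow_prime_eq hp (a : R) ((ζ - 1) * y)
  refine ⟨a ^ p, ?_⟩
  have hx : x = a + (ζ - 1) * y := by rw [← hy]; ring
  have h1 : (p : R) ∣ ((ζ - 1) * y) ^ p := by
    rw [mul_pow]
    exact Dvd.dvd.mul_right (p_dvd_lam_pow hlp (Nat.sub_le p 1)) _
  obtain ⟨s, hs⟩ := h1
  refine ⟨s + a * ((ζ - 1) * y) * r, ?_⟩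
  rw [hx, hr, hs]
  push_cast
  ring

theorem prod_range_eq (hp : p.Prime) (hp2 : p ≠ 2) (hζ : IsPrimitiveRoot ζ p) (x y : R) :
    x ^ p + y ^ p = ∏ k ∈ range p, (x + ζ ^ k * y) := by
  classical
  have hodd : Odd p := hp.odd_of_ne_two hp2
  rw [hζ.pow_add_pow_eq_prod_add_mul x y hodd]
  have himg : Polynomial.nthRootsFinset p (1 : R) = (range p).image (fun k => ζ ^ k) := by
    symm
    apply Finset.eq_of_subset_of_card_le
    · intro η hη
      obtain ⟨k, -, rfl⟩ := Finset.mem_image.mp hη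
      rw [Polynomial.mem_nthRootsFinset hp.pos]
      rw [← pow_mul, mul_comm, pow_mul, hζ.pow_eq_one, one_pow]
    · rw [hζ.card_nthRootsFinset, Finset.card_image_of_injOn, card_range]
      intro i hi j hj hij
      exact hζ.pow_inj (Finset.mem_range.mp hi) (Finset.mem_range.mp hj) hij
  rw [himg, Finset.prod_image]
  intro i hi j hj hij
  exact hζ.pow_inj (Finset.mem_range.mp hi) (Finset.mem_range.mp hj) hij

end basic

section descent

variable {R : Type*} [CommRing R] [IsDomain R] {p : ℕ} {ζ : R}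

/-- for an integer `b` prime to `p` and any integer `a` there is `k < p` with `p ∣ a + k * b` -/
theorem exists_lt_dvd_add_mul (hp : p.Prime) (a b : ℤ) (hb : ¬ (p : ℤ) ∣ b) :
    ∃ k : ℕ, k < p ∧ (p : ℤ) ∣ a + k * b := by
  have : Fact p.Prime := ⟨hp⟩
  have hb' : (b : ZMod p) ≠ 0 := by
    rwa [Ne, ZMod.intCast_zmod_eq_zero_iff_dvd]
  refine ⟨(-(a : ZMod p) / (b : ZMod p)).val, ZMod.val_lt _, ?_⟩
  rw [← ZMod.intCast_zmod_eq_zero_iff_dvd]
  push_cast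
  rw [ZMod.natCast_zmod_val, div_mul_cancel₀ _ hb']
  ring

/-- Some conjugate factor is divisible by `(ζ - 1) ^ 2`. -/
theorem exists_sq_dvd (hp : p.Prime) (hp2 : p ≠ 2) (hζ : IsPrimitiveRoot ζ p)
    (hl : Prime (ζ - 1)) (hlp : Associated ((ζ - 1) ^ (p - 1)) (p : R))
    (hres : ∀ x : R, ∃ n : ℤ, (ζ - 1) ∣ x - n)
    {m : ℕ} (hm : 1 ≤ m) {x y z : R} {ε : Rˣ} (hy : ¬ (ζ - 1) ∣ y)
    (h : x ^ p + y ^ p = ε * ((ζ - 1) ^ m * z) ^ p) :
    ∃ k : ℕ, k < p ∧ (ζ - 1) ^ 2 ∣ x + ζ ^ k * y := by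
  have hlp' : ζ - 1 ∣ (p : R) := lam_dvd_p hp hlp
  -- `ζ - 1` divides some factor, hence `x + y`
  have h1 : ζ - 1 ∣ ∏ k ∈ range p, (x + ζ ^ k * y) := by
    rw [← prod_range_eq hp hp2 hζ, h, mul_pow, ← pow_mul]
    exact Dvd.dvd.mul_left (Dvd.dvd.mul_right (dvd_pow_self _ (by
      have := hp.pos; positivity)) _) _
  obtain ⟨k1, -, hk1⟩ := (Prime.dvd_finsetProd_iff hl _).mp h1
  have h2 : ζ - 1 ∣ x + y := by
    have : x + y = (x + ζ ^ k1 * y) - (ζ ^ k1 - 1) * y := by ring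
    rw [this]
    exact dvd_sub hk1 (Dvd.dvd.mul_right (lam_dvd_pow_sub_one ζ k1) _)
  obtain ⟨c, hc⟩ := h2
  obtain ⟨a, ha⟩ := hres c
  obtain ⟨b, hb⟩ := hres y
  have hbp : ¬ (p : ℤ) ∣ b := by
    intro hbp
    apply hy
    have h3 : ζ - 1 ∣ (b : R) := by
      obtain ⟨t, rfl⟩ := hbp
      push_cast
      exact Dvd.dvd.mul_right hlp' _
    have := dvd_add hb h3
    simpa using this
  obtain ⟨k, hkp, hk⟩ := exists_lt_dvd_add_mul hp a b hbp
  refine ⟨k, hkp, ?_⟩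
  have h4 : x + ζ ^ k * y = (ζ - 1) * (c + (∑ i ∈ range k, ζ ^ i) * y) := by
    have := lam_mul_geom ζ k
    calc x + ζ ^ k * y = (x + y) + (ζ ^ k - 1) * y := by ring
      _ = (ζ - 1) * c + ((ζ - 1) * ∑ i ∈ range k, ζ ^ i) * y := by rw [hc, this]
      _ = _ := by ring
  rw [h4, pow_two]
  apply mul_dvd_mul_left
  have h5 : ζ - 1 ∣ ((a + k * b : ℤ) : R) := by
    obtain ⟨t, ht⟩ := hk
    rw [ht]
    push_cast
    exact Dvd.dvd.mul_right hlp' _
  have h6 : c + (∑ i ∈ range k, ζ ^ i) * y =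
      (c - a) + ((∑ i ∈ range k, ζ ^ i) - (k : R)) * y + (k : R) * (y - b) + ((a + k * b : ℤ) : R) := by
    push_cast
    ring
  rw [h6]
  exact dvd_add (dvd_add (dvd_add ha (Dvd.dvd.mul_right (lam_dvd_geom_sub ζ k) _))
    (Dvd.dvd.mul_left hb _)) h5

/-- a product of pairwise coprime elements which is a unit times an `n`-th power: each factor is
associated to an `n`-th power -/
theorem exists_associated_pow_of_prod [IsPrincipalIdealRing R] {ι : Type*} [DecidableEq ι]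
    (s : Finset ι) (Y : ι → R)
    (hcop : ∀ i ∈ s, ∀ j ∈ s, i ≠ j → IsCoprime (Y i) (Y j)) {n : ℕ} {w : R} {ε : Rˣ}
    (hprod : ∏ i ∈ s, Y i = ε * w ^ n) : ∀ i ∈ s, ∃ d : R, Associated (d ^ n) (Y i) := by
  intro i hi
  rw [← Finset.mul_prod_erase s Y hi] at hprod
  refine exists_associated_pow_of_associated_pow_mul (IsCoprime.prod_right fun j hj =>
    hcop i hi j (Finset.mem_of_mem_erase hj) (Finset.ne_of_mem_erase hj).symm) (c := w) ?_
  rw [hprod]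
  exact ⟨ε, by ring⟩

/-- The descent step, assuming `(ζ - 1) ^ 2 ∣ x + y`. -/
theorem descent_aux [IsPrincipalIdealRing R] (hp : p.Prime) (hp2 : p ≠ 2)
    (hζ : IsPrimitiveRoot ζ p)
    (hl : Prime (ζ - 1)) (hlp : Associated ((ζ - 1) ^ (p - 1)) (p : R))
    (hres : ∀ x : R, ∃ n : ℤ, (ζ - 1) ∣ x - n)
    (hK : ∀ u : Rˣ, (∃ n : ℤ, (p : R) ∣ (u : R) - n) → ∃ v : Rˣ, u = v ^ p)
    {m : ℕ} {x y z : R} {ε : Rˣ} (hy : ¬ (ζ - 1) ∣ y) (hz : ¬ (ζ - 1) ∣ z)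
    (hxy : IsCoprime x y) (h : x ^ p + y ^ p = ε * ((ζ - 1) ^ (m + 1) * z) ^ p)
    (hsq : (ζ - 1) ^ 2 ∣ x + y) :
    1 ≤ m ∧ ∃ (x' y' z' : R) (ε' : Rˣ), ¬ (ζ - 1) ∣ x' ∧ ¬ (ζ - 1) ∣ y' ∧ ¬ (ζ - 1) ∣ z' ∧
      IsCoprime x' y' ∧ x' ^ p + y' ^ p = ε' * ((ζ - 1) ^ m * z') ^ p := by
  classical
  have hp3 : 3 ≤ p := by have := hp.two_le; omega
  have hl0 : ζ - 1 ≠ 0 := hl.ne_zero
  obtain ⟨c, hc⟩ := hsq
  -- the geometric sums
  set g : ℕ → R := fun k => ∑ i ∈ range k, ζ ^ i with hg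
  have hg_mul : ∀ k, (ζ - 1) * g k = ζ ^ k - 1 := fun k => lam_mul_geom ζ k
  have hg_unit : ∀ k, 0 < k → k < p → IsUnit (g k) := fun k hk0 hkp =>
    hζ.geom_sum_isUnit hp.two_le (Nat.coprime_of_lt_prime hk0.ne' hkp hp).symm
  -- the quotients
  set X : ℕ → R := fun k => (ζ - 1) * c + g k * y with hX
  have hXmul : ∀ k, x + ζ ^ k * y = (ζ - 1) * X k := by
    intro k
    calc x + ζ ^ k * y = (x + y) + (ζ ^ k - 1) * y := by ring
      _ = (ζ - 1) ^ 2 * c + ((ζ - 1) * g k) * y := by rw [hc, hg_mul]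
      _ = (ζ - 1) * X k := by simp only [hX]; ring
  have hX0 : X 0 = (ζ - 1) * c := by simp [hX, hg]
  have hXndvd : ∀ k, 0 < k → k < p → ¬ (ζ - 1) ∣ X k := by
    intro k hk0 hkp hdvd
    have h1 : (ζ - 1) ∣ g k * y := by
      have : g k * y = X k - (ζ - 1) * c := by simp only [hX]; ring
      rw [this]; exact dvd_sub hdvd (dvd_mul_right _ _)
    rcases hl.dvd_or_dvd h1 with h2 | h2
    · exact hl.not_isUnit (isUnit_of_dvd_unit h2 (hg_unit k hk0 hkp))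
    · exact hy h2
  -- pairwise coprimality
  have hXcop : ∀ j k, j < k → k < p → IsCoprime (X j) (X k) := by
    intro j k hjk hkp
    obtain ⟨w, hw⟩ := hg_unit (k - j) (by omega) (by omega)
    obtain ⟨v, hv⟩ : IsUnit (ζ ^ j) := (hζ.isUnit hp.ne_zero).pow j
    have hpow : ζ ^ k = ζ ^ j * ζ ^ (k - j) := by rw [← pow_add]; congr 1; omega
    have e1 : X k - X j = ζ ^ j * g (k - j) * y := by
      apply mul_left_cancel₀ hl0
      calc (ζ - 1) * (X k - X j) = (x + ζ ^ k * y) - (x + ζ ^ j * y) := by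
            rw [hXmul, hXmul]; ring
        _ = ζ ^ j * (ζ ^ (k - j) - 1) * y := by rw [hpow]; ring
        _ = (ζ - 1) * (ζ ^ j * g (k - j) * y) := by rw [← hg_mul]; ring
    have e2 : ζ ^ k * X j - ζ ^ j * X k = ζ ^ j * g (k - j) * x := by
      apply mul_left_cancel₀ hl0
      calc (ζ - 1) * (ζ ^ k * X j - ζ ^ j * X k)
          = ζ ^ k * (x + ζ ^ j * y) - ζ ^ j * (x + ζ ^ k * y) := by rw [hXmul, hXmul]; ring
        _ = ζ ^ j * (ζ ^ (k - j) - 1) * x := by rw [hpow]; ring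
        _ = (ζ - 1) * (ζ ^ j * g (k - j) * x) := by rw [← hg_mul]; ring
    obtain ⟨a, b, hab⟩ := hxy
    refine ⟨(↑(v * w)⁻¹ : R) * (a * ζ ^ k - b), (↑(v * w)⁻¹ : R) * (b - a * ζ ^ j), ?_⟩
    have h3 : (a * ζ ^ k - b) * X j + (b - a * ζ ^ j) * X k = ((v * w : Rˣ) : R) := by
      have : (a * ζ ^ k - b) * X j + (b - a * ζ ^ j) * X k
          = a * (ζ ^ k * X j - ζ ^ j * X k) + b * (X k - X j) := by ring
      rw [this, e1, e2, Units.val_mul, hv, hw]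
      linear_combination (ζ ^ j * g (k - j)) * hab
    calc (↑(v * w)⁻¹ : R) * (a * ζ ^ k - b) * X j + (↑(v * w)⁻¹ : R) * (b - a * ζ ^ j) * X k
        = (↑(v * w)⁻¹ : R) * ((a * ζ ^ k - b) * X j + (b - a * ζ ^ j) * X k) := by ring
      _ = 1 := by rw [h3, Units.inv_mul]
  -- the product of the quotients
  have hprod : ∏ k ∈ range p, X k = ε * ((ζ - 1) ^ (m * p) * z ^ p) := by
    apply mul_left_cancel₀ (pow_ne_zero p hl0)
    calc (ζ - 1) ^ p * ∏ k ∈ range p, X k = ∏ k ∈ range p, ((ζ - 1) * X k) := by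
          rw [Finset.prod_mul_distrib, Finset.prod_const, card_range]
      _ = ∏ k ∈ range p, (x + ζ ^ k * y) := by simp only [hXmul]
      _ = ε * ((ζ - 1) ^ (m + 1) * z) ^ p := by rw [← prod_range_eq hp hp2 hζ, h]
      _ = (ζ - 1) ^ p * (ε * ((ζ - 1) ^ (m * p) * z ^ p)) := by
          have : ∀ l : R, (ε : R) * (l ^ (m + 1) * z) ^ p = l ^ p * (ε * (l ^ (m * p) * z ^ p)) := by
            intro l; ring
          exact this _
  set Q := ∏ k ∈ (range p).erase 0, X k with hQdef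
  have h0mem : 0 ∈ range p := mem_range.mpr hp.pos
  have hQ : X 0 * Q = ε * ((ζ - 1) ^ (m * p) * z ^ p) := by
    rw [hQdef, Finset.mul_prod_erase _ _ h0mem, hprod]
  have hQndvd : ¬ (ζ - 1) ∣ Q := by
    intro hd
    obtain ⟨k, hk, hkd⟩ := (Prime.dvd_finsetProd_iff hl _).mp hd
    exact hXndvd k (Nat.pos_of_ne_zero (Finset.ne_of_mem_erase hk))
      (mem_range.mp (Finset.mem_of_mem_erase hk)) hkd
  have hunit_z : ∀ t : R, (ζ - 1) ∣ ε * t ^ p → (ζ - 1) ∣ t := by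
    intro t ht
    rcases hl.dvd_or_dvd ht with h1 | h1
    · exact absurd (isUnit_of_dvd_unit h1 ε.isUnit) hl.not_isUnit
    · exact hl.dvd_of_dvd_pow h1
  -- `m ≥ 1`
  have hm1 : 1 ≤ m := by
    by_contra hm0
    have hm0 : m = 0 := by omega
    subst hm0
    have h1 : (ζ - 1) ∣ ε * z ^ p := by
      have h2 : (ζ - 1) ∣ X 0 * Q := by rw [hX0]; exact Dvd.dvd.mul_right (dvd_mul_right _ _) _
      rw [hQ] at h2
      simpa using h2
    exact hz (hunit_z z h1)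
  -- divide `X 0` by the right power of `ζ - 1`
  have hpow : (ζ - 1) ^ (m * p) ∣ X 0 := by
    apply hl.pow_dvd_of_dvd_mul_right _ hQndvd
    rw [hQ]; exact Dvd.dvd.mul_left (dvd_mul_right _ _) _
  obtain ⟨X0', hX0'⟩ := hpow
  have hQ' : X0' * Q = ε * z ^ p := by
    apply mul_left_cancel₀ (pow_ne_zero (m * p) hl0)
    rw [← mul_assoc, ← hX0', hQ]; ring
  have hX0'ndvd : ¬ (ζ - 1) ∣ X0' := by
    intro hd
    have : (ζ - 1) ∣ ε * z ^ p := by rw [← hQ']; exact Dvd.dvd.mul_right hd _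
    exact hz (hunit_z z this)
  -- new family
  set Y : ℕ → R := fun k => if k = 0 then X0' else X k with hY
  have hY0 : Y 0 = X0' := by simp [hY]
  have hYk : ∀ k, k ≠ 0 → Y k = X k := fun k hk => by simp [hY, hk]
  have hYprod : ∏ k ∈ range p, Y k = ε * z ^ p := by
    rw [← Finset.mul_prod_erase _ _ h0mem, hY0, ← hQ']
    congr 1
    apply Finset.prod_congr rfl
    intro k hk
    exact hYk k (Finset.ne_of_mem_erase hk)
  have hYcop : ∀ i ∈ range p, ∀ j ∈ range p, i ≠ j → IsCoprime (Y i) (Y j) := by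
    have key : ∀ i j, i < j → j < p → IsCoprime (Y i) (Y j) := by
      intro i j hij hjp
      rw [hYk j (by omega)]
      rcases Nat.eq_zero_or_pos i with rfl | hi
      · rw [hY0]
        have := hXcop 0 j hij hjp
        rw [hX0'] at this
        exact this.of_mul_left_right
      · rw [hYk i (by omega)]
        exact hXcop i j hij hjp
    intro i hi j hj hij
    rcases lt_or_gt_of_ne hij with h1 | h1
    · exact key i j h1 (mem_range.mp hj)
    · exact (key j i h1 (mem_range.mp hi)).symm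
  have hass := exists_associated_pow_of_prod (range p) Y hYcop hYprod
  obtain ⟨r0, u0, hr0⟩ := hass 0 h0mem
  obtain ⟨r1, u1, hr1⟩ := hass 1 (mem_range.mpr (by omega))
  obtain ⟨r2, u2, hr2⟩ := hass (p - 1) (mem_range.mpr (by omega))
  rw [hY0] at hr0
  rw [hYk 1 one_ne_zero] at hr1
  rw [hYk (p - 1) (by omega)] at hr2
  -- the linear relation
  have hrel : ζ * X (p - 1) + X 1 = (1 + ζ) * X 0 := by
    apply mul_left_cancel₀ hl0
    have hζp : ζ * ζ ^ (p - 1) = 1 := by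
      rw [← pow_succ', Nat.sub_add_cancel hp.pos, hζ.pow_eq_one]
    calc (ζ - 1) * (ζ * X (p - 1) + X 1) = ζ * (x + ζ ^ (p - 1) * y) + (x + ζ ^ 1 * y) := by
          rw [hXmul, hXmul]; ring
      _ = (1 + ζ) * (x + ζ ^ 0 * y) := by linear_combination y * hζp
      _ = (ζ - 1) * ((1 + ζ) * X 0) := by rw [hXmul]; ring
  -- units
  obtain ⟨uζ, huζ⟩ := hζ.isUnit hp.ne_zero
  obtain ⟨u12, hu12⟩ : IsUnit (1 + ζ) := by
    have := hζ.geom_sum_isUnit hp.two_le (j := 2)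
      ((Nat.coprime_primes Nat.prime_two hp).mpr (Ne.symm hp2))
    simpa [Finset.sum_range_succ] using this
  set η' : Rˣ := uζ * u2 * u1⁻¹ with hη'
  set η'' : Rˣ := u12 * u0 * u1⁻¹ with hη''
  have hmain : r1 ^ p + η' * r2 ^ p = η'' * ((ζ - 1) ^ m * r0) ^ p := by
    have h1 : (u1 : R) * (↑u1⁻¹ : R) = 1 := by simp
    have h2 : ζ * (r2 ^ p * u2) + r1 ^ p * u1 =
        (1 + ζ) * ((ζ - 1) ^ (m * p) * (r0 ^ p * u0)) := by
      rw [hr0, hr1, hr2, ← hX0']; exact hrel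
    simp only [hη', hη'', Units.val_mul, huζ, hu12]
    linear_combination (↑u1⁻¹ : R) * h2 - (r1 ^ p) * h1
  have hpd : (p : R) ∣ r1 ^ p + η' * r2 ^ p := by
    rw [hmain, mul_pow, ← pow_mul]
    exact Dvd.dvd.mul_left (Dvd.dvd.mul_right (p_dvd_lam_pow hlp
      (Nat.le_trans (Nat.sub_le p 1) (Nat.le_mul_of_pos_left p hm1))) _) _
  obtain ⟨A, hA⟩ := exists_int_pow_p hp hlp hres r1
  obtain ⟨B, hB⟩ := exists_int_pow_p hp hlp hres r2
  have hr2ndvd : ¬ (ζ - 1) ∣ r2 := by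
    intro hd
    apply hXndvd (p - 1) (by omega) (by omega)
    rw [← hr2]; exact Dvd.dvd.mul_right (dvd_pow hd hp.ne_zero) _
  have hr1ndvd : ¬ (ζ - 1) ∣ r1 := by
    intro hd
    apply hXndvd 1 one_pos (by omega)
    rw [← hr1]; exact Dvd.dvd.mul_right (dvd_pow hd hp.ne_zero) _
  have hr0ndvd : ¬ (ζ - 1) ∣ r0 := by
    intro hd
    apply hX0'ndvd
    rw [← hr0]; exact Dvd.dvd.mul_right (dvd_pow hd hp.ne_zero) _
  have hBp : ¬ (p : ℤ) ∣ B := by
    intro hd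
    apply hr2ndvd
    apply hl.dvd_of_dvd_pow (n := p)
    have h1 : (p : R) ∣ (B : R) := by
      obtain ⟨t, rfl⟩ := hd
      push_cast
      exact dvd_mul_right _ _
    have h2 : (p : R) ∣ r2 ^ p := by
      have := dvd_add hB h1
      simpa using this
    exact (lam_dvd_p hp hlp).trans h2
  obtain ⟨B', hB'⟩ : ∃ B' : ℤ, (p : ℤ) ∣ B * B' - 1 := by
    have hcop : IsCoprime (p : ℤ) B :=
      (Nat.prime_iff_prime_int.mp hp).coprime_iff_not_dvd.mpr hBp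
    obtain ⟨a, b, hab⟩ := hcop
    exact ⟨b, ⟨-a, by linear_combination hab⟩⟩
  have hKhyp : ∃ n : ℤ, (p : R) ∣ (η' : R) - n := by
    refine ⟨-(A * B'), ?_⟩
    obtain ⟨t1, ht1⟩ := hpd
    obtain ⟨t2, ht2⟩ := hA
    obtain ⟨t3, ht3⟩ := hB
    obtain ⟨t4, ht4⟩ := hB'
    have ht4' : (B : R) * B' - 1 = p * t4 := by
      exact_mod_cast congrArg (Int.cast : ℤ → R) ht4
    refine ⟨-(η' : R) * t4 + B' * (t1 - t2 - η' * t3), ?_⟩
    push_cast
    linear_combination (-(η' : R)) * ht4' + (B' : R) * (ht1 - ht2 - (η' : R) * ht3)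
  obtain ⟨v, hv⟩ := hK η' hKhyp
  refine ⟨hm1, r1, v * r2, r0, η'', hr1ndvd, ?_, hr0ndvd, ?_, ?_⟩
  · intro hd
    rcases hl.dvd_or_dvd hd with h1 | h1
    · exact hl.not_isUnit (isUnit_of_dvd_unit h1 v.isUnit)
    · exact hr2ndvd h1
  · have h1 : IsCoprime (X 1) (X (p - 1)) := hXcop 1 (p - 1) (by omega) (by omega)
    rw [← hr1, ← hr2] at h1
    have h2 : IsCoprime (r1 ^ p) (r2 ^ p) := h1.of_mul_left_left.of_mul_right_left
    have h3 : IsCoprime r1 r2 := (IsCoprime.pow_iff hp.pos hp.pos).mp h2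
    exact (isCoprime_mul_unit_left_right v.isUnit r1 r2).mpr h3
  · rw [mul_pow, ← Units.val_pow_eq_pow_val, ← hv]; exact hmain

/-- The descent step. -/
theorem descent_step [IsPrincipalIdealRing R] (hp : p.Prime) (hp2 : p ≠ 2)
    (hζ : IsPrimitiveRoot ζ p)
    (hl : Prime (ζ - 1)) (hlp : Associated ((ζ - 1) ^ (p - 1)) (p : R))
    (hres : ∀ x : R, ∃ n : ℤ, (ζ - 1) ∣ x - n)
    (hK : ∀ u : Rˣ, (∃ n : ℤ, (p : R) ∣ (u : R) - n) → ∃ v : Rˣ, u = v ^ p)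
    {m : ℕ} {x y z : R} {ε : Rˣ} (hy : ¬ (ζ - 1) ∣ y) (hz : ¬ (ζ - 1) ∣ z)
    (hxy : IsCoprime x y) (h : x ^ p + y ^ p = ε * ((ζ - 1) ^ (m + 1) * z) ^ p) :
    1 ≤ m ∧ ∃ (x' y' z' : R) (ε' : Rˣ), ¬ (ζ - 1) ∣ x' ∧ ¬ (ζ - 1) ∣ y' ∧ ¬ (ζ - 1) ∣ z' ∧
      IsCoprime x' y' ∧ x' ^ p + y' ^ p = ε' * ((ζ - 1) ^ m * z') ^ p := by
  obtain ⟨k, hkp, hk⟩ := exists_sq_dvd hp hp2 hζ hl hlp hres (Nat.succ_le_succ (Nat.zero_le m)) hy h
  have hζk : IsUnit (ζ ^ k) := (hζ.isUnit hp.ne_zero).pow k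
  refine descent_aux hp hp2 hζ hl hlp hres hK (x := x) (y := ζ ^ k * y) (z := z) (ε := ε)
    ?_ hz ?_ ?_ hk
  · intro hd
    rcases hl.dvd_or_dvd hd with h1 | h1
    · exact hl.not_isUnit (isUnit_of_dvd_unit h1 hζk)
    · exact hy h1
  · exact (isCoprime_mul_unit_left_right hζk x y).mpr hxy
  · rw [mul_pow, ← pow_mul, mul_comm k p, pow_mul, hζ.pow_eq_one, one_pow, one_mul]; exact h

/-- Kummer's descent: the generalized Fermat equation has no solution. -/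
theorem no_solution [IsPrincipalIdealRing R] (hp : p.Prime) (hp2 : p ≠ 2)
    (hζ : IsPrimitiveRoot ζ p)
    (hl : Prime (ζ - 1)) (hlp : Associated ((ζ - 1) ^ (p - 1)) (p : R))
    (hres : ∀ x : R, ∃ n : ℤ, (ζ - 1) ∣ x - n)
    (hK : ∀ u : Rˣ, (∃ n : ℤ, (p : R) ∣ (u : R) - n) → ∃ v : Rˣ, u = v ^ p) :
    ∀ (m : ℕ), 1 ≤ m → ∀ (x y z : R) (ε : Rˣ), ¬ (ζ - 1) ∣ y → ¬ (ζ - 1) ∣ z → IsCoprime x y →
      x ^ p + y ^ p ≠ ε * ((ζ - 1) ^ m * z) ^ p := by
  intro m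
  induction m with
  | zero => intro h; omega
  | succ m ih =>
    intro _ x y z ε hy hz hxy h
    obtain ⟨hm, x', y', z', ε', -, hy', hz', hxy', h'⟩ :=
      descent_step hp hp2 hζ hl hlp hres hK hy hz hxy h
    exact ih hm x' y' z' ε' hy' hz' hxy' h'

/-- The second case of Fermat's last theorem for exponent `p`, from the abstract hypotheses. -/
theorem caseII_abstract [IsPrincipalIdealRing R] (hp : p.Prime) (hp2 : p ≠ 2)
    (hζ : IsPrimitiveRoot ζ p)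
    (hl : Prime (ζ - 1)) (hlp : Associated ((ζ - 1) ^ (p - 1)) (p : R))
    (hres : ∀ x : R, ∃ n : ℤ, (ζ - 1) ∣ x - n)
    (hK : ∀ u : Rˣ, (∃ n : ℤ, (p : R) ∣ (u : R) - n) → ∃ v : Rˣ, u = v ^ p)
    (a b c : ℤ) (hab : IsCoprime a b) (hc : c ≠ 0) (hpc : (p : ℤ) ∣ c) :
    a ^ p + b ^ p ≠ c ^ p := by
  intro h
  have hpZ : Prime (p : ℤ) := Nat.prime_iff_prime_int.mp hp
  have hpb : ¬ (p : ℤ) ∣ b := by
    intro hb
    have ha : (p : ℤ) ∣ a ^ p := by
      have : a ^ p = c ^ p - b ^ p := by linarith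
      rw [this]; exact dvd_sub (dvd_pow hpc hp.ne_zero) (dvd_pow hb hp.ne_zero)
    have ha' := hpZ.dvd_of_dvd_pow ha
    exact hpZ.not_isUnit (hab.isUnit_of_dvd' ha' hb)
  have hfin : FiniteMultiplicity (p : ℤ) c :=
    Int.finiteMultiplicity_iff.mpr ⟨by simpa using hp.ne_one, hc⟩
  obtain ⟨c0, hcn, hc0⟩ := hfin.exists_eq_pow_mul_and_not_dvd
  set n := multiplicity (p : ℤ) c with hn_def
  have hn : 1 ≤ n := by
    by_contra hn0
    have hn0 : n = 0 := by omega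
    rw [hn0, pow_zero, one_mul] at hcn
    exact hc0 (hcn ▸ hpc)
  obtain ⟨u, hu⟩ := hlp
  have hlp' : ζ - 1 ∣ (p : R) := lam_dvd_p hp ⟨u, hu⟩
  have key : ((a : R)) ^ p + (b : R) ^ p =
      ((u ^ (n * p) : Rˣ) : R) * ((ζ - 1) ^ ((p - 1) * n) * (c0 : R)) ^ p := by
    have h1 : (c : R) = ((ζ - 1) ^ (p - 1) * u) ^ n * c0 := by
      rw [hu]
      exact_mod_cast congrArg (Int.cast : ℤ → R) hcn
    have h' : (a : R) ^ p + (b : R) ^ p = (c : R) ^ p := by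
      exact_mod_cast congrArg (Int.cast : ℤ → R) h
    rw [h', h1]
    push_cast
    ring
  refine no_solution hp hp2 hζ hl ⟨u, hu⟩ hres hK ((p - 1) * n) ?_ a b c0 (u ^ (n * p))
    ?_ ?_ ?_ key
  · have := hp.two_le
    exact Nat.mul_pos (by omega) hn
  · intro hd; exact hpb (int_dvd_of_lam_dvd hp hl hlp' hd)
  · intro hd; exact hc0 (int_dvd_of_lam_dvd hp hl hlp' hd)
  · exact hab.intCast

end descent

end Fermat.Agent.Kummer.Abs
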