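import Fermat.Agent.Lib.Kummer.CaseIIAbstract

/-!
# Residues modulo `ζ - 1` in the ring of integers of the `p`-th cyclotomic field

Every element of `𝓞 K` is congruent to a rational integer modulo `ζ - 1`, and every `p`-th
power is congruent to a rational integer modulo `p`.
-/

set_option autoImplicit false
set_option linter.unusedSectionVars false

namespace Fermat.Agent.Kummer

open NumberField Polynomial

variable {p : ℕ} [hp : Fact p.Prime] {K : Type*} [Field K] [NumberField K]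
  [IsCyclotomicExtension {p} ℚ K] {ζ : K}

/-- every element of `𝓞 K` is congruent to a rational integer modulo `ζ - 1` -/
theorem exists_int_sub_dvd (hζ : IsPrimitiveRoot ζ p) (x : 𝓞 K) :
    ∃ n : ℤ, hζ.toInteger - 1 ∣ x - (n : 𝓞 K) := by
  obtain ⟨f, hf⟩ := hζ.integralPowerBasis.exists_eq_aeval' x
  rw [hζ.integralPowerBasis_gen] at hf
  refine ⟨f.eval 1, ?_⟩
  have h1 : x = (f.map (algebraMap ℤ (𝓞 K))).eval hζ.toInteger := by
    rw [hf, aeval_def, eval₂_eq_eval_map]
  have h2 : ((f.eval 1 : ℤ) : 𝓞 K) = (f.map (algebraMap ℤ (𝓞 K))).eval 1 := by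
    rw [eval_map, eval₂_at_one]
    simp
  rw [h1, h2]
  exact sub_dvd_eval_sub _ _ _

/-- `(ζ - 1) ^ (p - 1)` is associated to `p` -/
theorem associated_lam_pow (hζ : IsPrimitiveRoot ζ p) :
    Associated ((hζ.toInteger - 1) ^ (p - 1)) (p : 𝓞 K) :=
  IsCyclotomicExtension.Rat.associated_zeta_sub_one_pow_prime p hζ

/-- every `p`-th power in `𝓞 K` is congruent to a rational integer modulo `p` -/
theorem exists_int_pow_sub_dvd (hζ : IsPrimitiveRoot ζ p) (x : 𝓞 K) :
    ∃ n : ℤ, (p : 𝓞 K) ∣ x ^ p - (n : 𝓞 K) :=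
  Abs.exists_int_pow_p hp.out (associated_lam_pow hζ) (exists_int_sub_dvd hζ) x

/-- an integer divisible by `ζ - 1` in `𝓞 K` is divisible by `p` -/
theorem int_dvd_of_zeta_sub_one_dvd (hζ : IsPrimitiveRoot ζ p) {n : ℤ}
    (h : hζ.toInteger - 1 ∣ (n : 𝓞 K)) : (p : ℤ) ∣ n :=
  Abs.int_dvd_of_lam_dvd hp.out hζ.zeta_sub_one_prime'
    (Abs.lam_dvd_p hp.out (associated_lam_pow hζ)) h

end Fermat.Agent.Kummer
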