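import Fermat.Agent.Lib.Kummer.Defs
import Fermat.Agent.Lib.Kummer.Residue

/-!
# Kummer's lemma from Dirichlet's unit theorem (helper9)

Let `K = ℚ(ζ_p)`, `p` an odd prime.  By Dirichlet's unit theorem the unit group `E` of `𝓞 K`
is generated by a cyclic torsion group and `(p - 3) / 2` fundamental units, so `E / E ^ p` has at
most `p ^ ((p - 1) / 2)` elements.  Hence, if `(p - 1) / 2` units are independent modulo `p`-th
powers, in the sense that a product of powers which is congruent to a rational integer modulo `p`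
has all exponents divisible by `p`, then Kummer's lemma holds for `p`.
-/

set_option autoImplicit false

namespace Fermat.Agent.Kummer

open NumberField

namespace Dir

section general

variable {E : Type*} [CommGroup E]

/-- Reduce an integer exponent modulo `p`, up to a `p`-th power. -/
theorem zpow_eq_pow_val_mul_pow (p : ℕ) [NeZero p] (g : E) (k : ℤ) :
    ∃ w : E, g ^ k = g ^ ((k : ZMod p).val) * w ^ p := by
  refine ⟨g ^ (k / (p : ℤ)), ?_⟩
  have h1 : (((k : ZMod p).val : ℕ) : ℤ) = k % (p : ℤ) := ZMod.val_intCast k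
  have h2 : k = ((k : ZMod p).val : ℤ) + (k / (p : ℤ)) * (p : ℤ) := by
    rw [h1, mul_comm]; exact (Int.emod_add_mul_ediv k p).symm
  conv_lhs => rw [h2]
  rw [zpow_add, zpow_mul, zpow_natCast, zpow_natCast]

/-- Reduce a product of integer powers modulo `p`-th powers. -/
theorem prod_zpow_eq_prod_pow_val_mul_pow (p : ℕ) [NeZero p] {ι : Type*} [Fintype ι]
    (g : ι → E) (k : ι → ℤ) :
    ∃ w : E, ∏ i, g i ^ k i = (∏ i, g i ^ ((k i : ZMod p).val)) * w ^ p := by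
  choose w hw using fun i => zpow_eq_pow_val_mul_pow p (g i) (k i)
  refine ⟨∏ i, w i, ?_⟩
  rw [← Finset.prod_pow, ← Finset.prod_mul_distrib]
  exact Finset.prod_congr rfl fun i _ => hw i

end general

section units

variable {p : ℕ} [hp : Fact p.Prime] (K : Type*) [Field K] [NumberField K]
  [IsCyclotomicExtension {p} ℚ K]

/-- The unit rank of the `p`-th cyclotomic field. -/
theorem rank_eq (hp2 : p ≠ 2) : Units.rank K + 1 = (p - 1) / 2 := by
  have hp3 : 2 < p := lt_of_le_of_ne hp.out.two_le (Ne.symm hp2)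
  have h1 : InfinitePlace.nrRealPlaces K = 0 := IsCyclotomicExtension.Rat.nrRealPlaces_eq_zero K hp3
  have h2 : InfinitePlace.nrComplexPlaces K = Nat.totient p / 2 :=
    IsCyclotomicExtension.Rat.nrComplexPlaces_eq_totient_div_two p K
  have h3 := InfinitePlace.card_eq_nrRealPlaces_add_nrComplexPlaces K
  rw [h1, h2, zero_add, Nat.totient_prime hp.out] at h3
  rw [Units.rank, h3]
  have : 1 ≤ (p - 1) / 2 := by omega
  omega

/-- The subgroup of `p`-th powers of units. -/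
abbrev powSubgroup (p : ℕ) (K : Type*) [Field K] : Subgroup (𝓞 K)ˣ :=
  (powMonoidHom p : (𝓞 K)ˣ →* (𝓞 K)ˣ).range

theorem mem_powSubgroup {u : (𝓞 K)ˣ} : u ∈ powSubgroup p K ↔ ∃ v : (𝓞 K)ˣ, v ^ p = u :=
  Iff.rfl

/-- Dirichlet: the units modulo `p`-th powers are covered by `p ^ (rank + 1)` classes. -/
theorem exists_surjective :
    ∃ A : ZMod p × (Fin (Units.rank K) → ZMod p) → (𝓞 K)ˣ ⧸ powSubgroup p K,
      Function.Surjective A := by
  obtain ⟨t, ht⟩ := IsCyclic.exists_generator (α := Units.torsion K)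
  refine ⟨fun ae => QuotientGroup.mk (((t : (𝓞 K)ˣ) ^ ae.1.val) *
    ∏ i, Units.fundSystem K i ^ (ae.2 i).val), ?_⟩
  intro q
  obtain ⟨x, rfl⟩ := QuotientGroup.mk_surjective q
  obtain ⟨⟨ζ, f⟩, hx, -⟩ := Units.exist_unique_eq_mul_prod K x
  obtain ⟨k, hk⟩ := Subgroup.mem_zpowers_iff.1 (ht ζ)
  obtain ⟨w₀, hw₀⟩ := zpow_eq_pow_val_mul_pow p (t : (𝓞 K)ˣ) k
  obtain ⟨w₁, hw₁⟩ := prod_zpow_eq_prod_pow_val_mul_pow p (Units.fundSystem K) f
  refine ⟨((k : ZMod p), fun i => (f i : ZMod p)), ?_⟩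
  have hζ : (ζ : (𝓞 K)ˣ) = (t : (𝓞 K)ˣ) ^ k := by
    rw [← hk]; simp
  have hx' : x = ((t : (𝓞 K)ˣ) ^ (k : ZMod p).val *
      ∏ i, Units.fundSystem K i ^ ((f i : ZMod p)).val) * (w₀ * w₁) ^ p := by
    rw [hx]
    show (ζ : (𝓞 K)ˣ) * ∏ i, Units.fundSystem K i ^ f i = _
    rw [hζ, hw₀, hw₁, mul_pow]
    exact mul_mul_mul_comm _ _ _ _
  show QuotientGroup.mk _ = QuotientGroup.mk x
  rw [QuotientGroup.eq]
  refine ⟨w₀ * w₁, ?_⟩
  show (w₀ * w₁) ^ p = _
  rw [eq_inv_mul_iff_mul_eq]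
  exact hx'.symm

end units

section main

variable {p : ℕ} [hp : Fact p.Prime] (K : Type*) [Field K] [NumberField K]
  [IsCyclotomicExtension {p} ℚ K]

/-- The `p`-th power of a unit is congruent to a rational integer modulo `p`. -/
theorem unit_pow_congr (v : (𝓞 K)ˣ) :
    ∃ n : ℤ, (p : 𝓞 K) ∣ ((v ^ p : (𝓞 K)ˣ) : 𝓞 K) - (n : 𝓞 K) := by
  obtain ⟨n, hn⟩ := exists_int_pow_sub_dvd (IsCyclotomicExtension.zeta_spec p ℚ K) (v : 𝓞 K)
  exact ⟨n, by simpa using hn⟩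

/-- Congruences to integers multiply. -/
theorem congr_mul {a b : 𝓞 K} {n n' : ℤ} (ha : (p : 𝓞 K) ∣ a - (n : 𝓞 K))
    (hb : (p : 𝓞 K) ∣ b - (n' : 𝓞 K)) : (p : 𝓞 K) ∣ a * b - ((n * n' : ℤ) : 𝓞 K) := by
  have : a * b - ((n * n' : ℤ) : 𝓞 K) = (a - n) * b + n * (b - n') := by push_cast; ring
  rw [this]
  exact dvd_add (Dvd.dvd.mul_right ha _) (Dvd.dvd.mul_left hb _)

end main

end Dir

section statement

variable {p : ℕ} [hp : Fact p.Prime] (K : Type*) [Field K] [NumberField K]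
  [IsCyclotomicExtension {p} ℚ K]

open Dir in
/-- Kummer's lemma from the independence of `(p - 1) / 2` units modulo `p`-th powers
(integer exponents). -/
theorem kummerLemma_of_indep_int (hp2 : p ≠ 2) (h : Fin ((p - 1) / 2) → (𝓞 K)ˣ)
    (hind : ∀ e : Fin ((p - 1) / 2) → ℤ,
      (∃ n : ℤ, (p : 𝓞 K) ∣ ((∏ i, h i ^ e i : (𝓞 K)ˣ) : 𝓞 K) - (n : 𝓞 K)) →
        ∀ i, (p : ℤ) ∣ e i) :
    KummerLemma p K := by
  classical
  haveI : NeZero p := ⟨hp.out.ne_zero⟩
  obtain ⟨A, hA⟩ := exists_surjective (p := p) K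
  haveI : Finite ((𝓞 K)ˣ ⧸ powSubgroup p K) := Finite.of_surjective A hA
  let B : (Fin ((p - 1) / 2) → ZMod p) → (𝓞 K)ˣ ⧸ powSubgroup p K := fun e =>
    QuotientGroup.mk (∏ i, h i ^ (e i).val)
  have hB : Function.Injective B := by
    intro e e' hee
    obtain ⟨v, hv⟩ := QuotientGroup.eq.1 hee
    have h2 : ∏ i, h i ^ (((e' i).val : ℤ) - ((e i).val : ℤ)) = v ^ p := by
      have hv' : v ^ p = (∏ i, h i ^ (e i).val)⁻¹ * ∏ i, h i ^ (e' i).val := hv
      rw [hv', ← Finset.prod_inv_distrib, ← Finset.prod_mul_distrib]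
      refine Finset.prod_congr rfl fun i _ => ?_
      rw [zpow_sub, zpow_natCast, zpow_natCast, mul_comm]
    have h3 := hind _ (h2 ▸ unit_pow_congr K v)
    funext i
    have h4 := h3 i
    have h5 : (((e' i).val : ℤ) : ZMod p) = (((e i).val : ℤ) : ZMod p) := by
      rw [← sub_eq_zero, ← Int.cast_sub]
      exact (ZMod.intCast_zmod_eq_zero_iff_dvd _ p).2 h4
    simpa using h5.symm
  have hcard : Nat.card ((𝓞 K)ˣ ⧸ powSubgroup p K) ≤ Nat.card (Fin ((p - 1) / 2) → ZMod p) := by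
    calc Nat.card ((𝓞 K)ˣ ⧸ powSubgroup p K)
        ≤ Nat.card (ZMod p × (Fin (Units.rank K) → ZMod p)) :=
          Nat.card_le_card_of_surjective A hA
      _ = p ^ (Units.rank K + 1) := by
          rw [Nat.card_prod, Nat.card_fun, Nat.card_zmod, Nat.card_fin, pow_succ, mul_comm]
      _ = Nat.card (Fin ((p - 1) / 2) → ZMod p) := by
          rw [rank_eq K hp2, Nat.card_fun, Nat.card_zmod, Nat.card_fin]
  have hBsurj := (hB.bijective_of_nat_card_le hcard).2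
  rintro u ⟨n, hn⟩
  obtain ⟨e, he⟩ := hBsurj (QuotientGroup.mk u)
  obtain ⟨v, hv⟩ := QuotientGroup.eq.1 he
  have hv' : v ^ p = (∏ i, h i ^ (e i).val)⁻¹ * u := hv
  have h4 : ∏ i, h i ^ (((e i).val : ℕ) : ℤ) = u * v⁻¹ ^ p := by
    simp_rw [zpow_natCast]
    rw [inv_pow, hv', mul_inv_rev, inv_inv, mul_inv_cancel_left]
  obtain ⟨n', hn'⟩ := unit_pow_congr (p := p) K v⁻¹
  have h5 := hind (fun i => ((e i).val : ℤ)) ⟨n * n', by
    rw [h4, Units.val_mul]
    exact congr_mul K hn hn'⟩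
  have h6 : ∀ i, e i = 0 := by
    intro i
    have := (ZMod.intCast_zmod_eq_zero_iff_dvd _ p).2 (h5 i)
    simpa using this
  refine ⟨v, ?_⟩
  have h7 : ∏ i, h i ^ (((e i).val : ℕ) : ℤ) = 1 := by
    refine Finset.prod_eq_one fun i _ => ?_
    rw [h6 i]; simp
  rw [h7] at h4
  exact (mul_eq_one_iff_eq_inv.1 h4.symm).trans (by rw [inv_pow, inv_inv])

/-- Kummer's lemma from the independence of `(p - 1) / 2` units modulo `p`-th powers
(natural exponents below `p`). -/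
theorem kummerLemma_of_indep (hp2 : p ≠ 2) (h : Fin ((p - 1) / 2) → (𝓞 K)ˣ)
    (hind : ∀ e : Fin ((p - 1) / 2) → ℕ, (∀ i, e i < p) →
      (∃ n : ℤ, (p : 𝓞 K) ∣ ((∏ i, h i ^ e i : (𝓞 K)ˣ) : 𝓞 K) - (n : 𝓞 K)) →
        ∀ i, e i = 0) :
    KummerLemma p K := by
  haveI : NeZero p := ⟨hp.out.ne_zero⟩
  refine kummerLemma_of_indep_int K hp2 h fun e ⟨n, hn⟩ i => ?_
  obtain ⟨w, hw⟩ := Dir.prod_zpow_eq_prod_pow_val_mul_pow p h e
  obtain ⟨n', hn'⟩ := Dir.unit_pow_congr (p := p) K w⁻¹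
  have h1 : ∏ i, h i ^ ((e i : ZMod p).val) = (∏ i, h i ^ e i) * w⁻¹ ^ p := by
    rw [hw, inv_pow, mul_inv_cancel_right]
  have h2 := hind (fun i => (e i : ZMod p).val) (fun i => ZMod.val_lt _)
    ⟨n * n', by rw [h1, Units.val_mul]; exact Dir.congr_mul K hn hn'⟩ i
  exact (ZMod.intCast_zmod_eq_zero_iff_dvd _ p).1 ((ZMod.val_eq_zero _).1 h2)

end statement

end Fermat.Agent.Kummer
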