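import Fermat.Agent.Lib.Kummer.CaseIIAbstract

/-!
# Leading terms of units modulo powers of `ζ - 1`

Abstract ring `R`, prime element `l` (in applications `l = ζ - 1`) with `l ^ (p - 1)`
associated to `p`.  An element `u` has *level* `d` if `u ≡ A + B * l ^ d` modulo `l ^ (d + 1)`
with rational integers `A`, `B` prime to `p`.  A family of elements with strictly increasing
levels `1 ≤ d ≤ p - 2` is multiplicatively independent modulo elements congruent to a rational
integer modulo `p`.  The second part is a small computable model of `R / (p, l ^ N)` by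
coefficient lists, used to certify levels of explicit elements by evaluation.
-/

set_option autoImplicit false
set_option linter.unusedSectionVars false
set_option linter.unusedVariables false

namespace Fermat.Agent.Kummer

open Finset

section levels

variable {R : Type*} [CommRing R]

/-- `u` is congruent to an integer prime to `p` modulo `l ^ d`. -/
def Flat (l : R) (p d : ℕ) (u : R) : Prop :=
  ∃ A : ℤ, ¬ (p : ℤ) ∣ A ∧ l ^ d ∣ u - (A : R)

/-- `u ≡ A + B * l ^ d` modulo `l ^ (d + 1)` with integers `A`, `B` prime to `p`. -/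
def Lev (l : R) (p d : ℕ) (u : R) : Prop :=
  ∃ A B : ℤ, ¬ (p : ℤ) ∣ A ∧ ¬ (p : ℤ) ∣ B ∧ l ^ (d + 1) ∣ u - ((A : R) + (B : R) * l ^ d)

variable {l : R} {p : ℕ}

theorem flat_one (hp : p.Prime) (d : ℕ) : Flat l p d (1 : R) :=
  ⟨1, fun h => (Nat.prime_iff_prime_int.mp hp).not_dvd_one h, by simp⟩

theorem Flat.mul (hp : p.Prime) {d : ℕ} {u v : R} (hu : Flat l p d u) (hv : Flat l p d v) :
    Flat l p d (u * v) := by
  obtain ⟨A, hA, s, hs⟩ := hu
  obtain ⟨A', hA', t, ht⟩ := hv
  refine ⟨A * A', ?_, s * v + A * t, ?_⟩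
  · intro h
    rcases (Nat.prime_iff_prime_int.mp hp).dvd_or_dvd h with h | h
    · exact hA h
    · exact hA' h
  · push_cast
    linear_combination v * hs + (A : R) * ht

theorem Flat.pow (hp : p.Prime) {d : ℕ} {u : R} (hu : Flat l p d u) (k : ℕ) :
    Flat l p d (u ^ k) := by
  induction k with
  | zero => simpa using flat_one hp d
  | succ k ih => rw [pow_succ]; exact ih.mul hp hu

theorem Flat.mono {d d' : ℕ} {u : R} (hu : Flat l p d u) (h : d' ≤ d) : Flat l p d' u := by
  obtain ⟨A, hA, hd⟩ := hu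
  exact ⟨A, hA, (pow_dvd_pow l h).trans hd⟩

theorem Lev.flat {d : ℕ} {u : R} (hu : Lev l p d u) : Flat l p d u := by
  obtain ⟨A, B, hA, hB, t, ht⟩ := hu
  refine ⟨A, hA, l * t + B, ?_⟩
  linear_combination ht

theorem Lev.mul_flat (hp : p.Prime) {d : ℕ} {u v : R} (hu : Lev l p d u)
    (hv : Flat l p (d + 1) v) : Lev l p d (u * v) := by
  obtain ⟨A, B, hA, hB, s, hs⟩ := hu
  obtain ⟨A', hA', t, ht⟩ := hv
  have hpZ := Nat.prime_iff_prime_int.mp hp
  refine ⟨A * A', B * A', ?_, ?_, s * v + (A + B * l ^ d) * t, ?_⟩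
  · intro h
    rcases hpZ.dvd_or_dvd h with h | h
    · exact hA h
    · exact hA' h
  · intro h
    rcases hpZ.dvd_or_dvd h with h | h
    · exact hB h
    · exact hA' h
  · push_cast
    linear_combination v * hs + ((A : R) + B * l ^ d) * ht

theorem pow_linear_aux (a x : R) (k : ℕ) :
    ∃ t : R, (a + x) ^ (k + 1) = a ^ (k + 1) + (k + 1 : ℕ) * a ^ k * x + x ^ 2 * t := by
  induction k with
  | zero => exact ⟨0, by simp⟩
  | succ k ih =>
    obtain ⟨t, ht⟩ := ih
    refine ⟨(k + 1 : ℕ) * a ^ k + t * a + t * x, ?_⟩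
    rw [pow_succ, ht]
    push_cast
    ring

theorem Lev.pow (hp : p.Prime) {d : ℕ} (hd : 1 ≤ d) {u : R} (hu : Lev l p d u) {k : ℕ}
    (hk0 : 0 < k) (hkp : k < p) : Lev l p d (u ^ k) := by
  obtain ⟨A, B, hA, hB, hdvd⟩ := hu
  obtain ⟨k, rfl⟩ : ∃ k', k = k' + 1 := ⟨k - 1, by omega⟩
  have hpZ := Nat.prime_iff_prime_int.mp hp
  refine ⟨A ^ (k + 1), (k + 1 : ℕ) * A ^ k * B, ?_, ?_, ?_⟩
  · exact fun h => hA (hpZ.dvd_of_dvd_pow h)
  · intro h
    rcases hpZ.dvd_or_dvd h with h | h
    · rcases hpZ.dvd_or_dvd h with h | h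
      · have := Nat.le_of_dvd (by omega) (Int.natCast_dvd_natCast.mp h)
        omega
      · exact hA (hpZ.dvd_of_dvd_pow h)
    · exact hB h
  · obtain ⟨t, ht⟩ := pow_linear_aux (A : R) ((B : R) * l ^ d) k
    have h1 : l ^ (d + 1) ∣ u ^ (k + 1) - ((A : R) + (B : R) * l ^ d) ^ (k + 1) :=
      hdvd.trans (sub_dvd_pow_sub_pow _ _ _)
    have h2 : l ^ (d + 1) ∣ ((B : R) * l ^ d) ^ 2 * t := by
      have : ((B : R) * l ^ d) ^ 2 * t = l ^ (d + 1) * (l ^ (d - 1) * B ^ 2 * t) := by
        have hdd : d + d = (d + 1) + (d - 1) := by omega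
        calc ((B : R) * l ^ d) ^ 2 * t = l ^ (d + d) * (B ^ 2 * t) := by ring
          _ = l ^ (d + 1) * (l ^ (d - 1) * B ^ 2 * t) := by rw [hdd, pow_add]; ring
      rw [this]
      exact dvd_mul_right _ _
    have h3 : u ^ (k + 1) - (((A ^ (k + 1) : ℤ) : R) + (((k + 1 : ℕ) * A ^ k * B : ℤ) : R) * l ^ d)
        = (u ^ (k + 1) - ((A : R) + (B : R) * l ^ d) ^ (k + 1)) + ((B : R) * l ^ d) ^ 2 * t := by
      rw [ht]
      push_cast
      ring
    rw [h3]
    exact dvd_add h1 h2

variable [IsDomain R]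

/-- An element of level `d` with `1 ≤ d ≤ p - 2` is not congruent to an integer modulo `p`. -/
theorem Lev.not_int (hp : p.Prime) (hl : Prime l) (hlp : Associated (l ^ (p - 1)) (p : R))
    (hint : ∀ n : ℤ, l ∣ (n : R) → (p : ℤ) ∣ n) {d : ℕ} (hd1 : 1 ≤ d) (hd2 : d + 2 ≤ p)
    {u : R} (hu : Lev l p d u) : ¬ ∃ n : ℤ, (p : R) ∣ u - (n : R) := by
  rintro ⟨n, hn⟩
  obtain ⟨A, B, hA, hB, hdvd⟩ := hu
  have hlp' : l ^ (d + 1) ∣ (p : R) := (pow_dvd_pow l (by omega)).trans hlp.dvd
  have h1 : l ^ (d + 1) ∣ ((n - A : ℤ) : R) - (B : R) * l ^ d := by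
    have : ((n - A : ℤ) : R) - (B : R) * l ^ d
        = (u - ((A : R) + (B : R) * l ^ d)) - (u - (n : R)) := by push_cast; ring
    rw [this]
    exact dvd_sub hdvd (hlp'.trans hn)
  have h2 : l ∣ ((n - A : ℤ) : R) := by
    have h3 : l ∣ ((n - A : ℤ) : R) - (B : R) * l ^ d := (dvd_pow_self l (by omega)).trans h1
    have h4 : l ∣ (B : R) * l ^ d := Dvd.dvd.mul_left (dvd_pow_self l (by omega)) _
    have := dvd_add h3 h4
    simpa using this
  have h5 : (p : ℤ) ∣ n - A := hint _ h2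
  have h6 : l ^ (d + 1) ∣ ((n - A : ℤ) : R) := by
    obtain ⟨t, ht⟩ := h5
    rw [ht]
    push_cast
    exact Dvd.dvd.mul_right hlp' _
  have h7 : l ^ (d + 1) ∣ (B : R) * l ^ d := by
    have := dvd_sub h6 h1
    simpa using this
  have h8 : l ∣ (B : R) := by
    rw [pow_succ, mul_comm (B : R)] at h7
    exact (mul_dvd_mul_iff_left (pow_ne_zero d hl.ne_zero)).mp h7
  exact hB (hint _ h8)

/-- Elements with strictly increasing levels in `[1, p - 2]` are independent modulo
elements congruent to integers modulo `p`. -/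
theorem indep_of_lev (hp : p.Prime) (hl : Prime l) (hlp : Associated (l ^ (p - 1)) (p : R))
    (hint : ∀ n : ℤ, l ∣ (n : R) → (p : ℤ) ∣ n) {s : ℕ} (x : Fin s → R) (d : Fin s → ℕ)
    (hd : ∀ i j : Fin s, i < j → d i < d j) (hd1 : ∀ i, 1 ≤ d i) (hd2 : ∀ i, d i + 2 ≤ p)
    (hlev : ∀ i, Lev l p (d i) (x i)) (e : Fin s → ℕ) (he : ∀ i, e i < p)
    (h : ∃ n : ℤ, (p : R) ∣ (∏ i, x i ^ e i) - (n : R)) : ∀ i, e i = 0 := by
  classical
  by_contra hne
  push Not at hne
  obtain ⟨i1, hi1⟩ := hne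
  obtain ⟨i0, hi0, hmin⟩ := Finset.exists_min_image (Finset.univ.filter fun i => e i ≠ 0)
    (fun i => i) ⟨i1, by simp [hi1]⟩
  have hi0' : e i0 ≠ 0 := (Finset.mem_filter.mp hi0).2
  have hprod : ∏ i, x i ^ e i = x i0 ^ e i0 * ∏ i ∈ Finset.univ.erase i0, x i ^ e i :=
    (Finset.mul_prod_erase _ _ (Finset.mem_univ i0)).symm
  have hflat : Flat l p (d i0 + 1) (∏ i ∈ Finset.univ.erase i0, x i ^ e i) := by
    apply Finset.prod_induction _ (Flat l p (d i0 + 1)) (fun a b ha hb => ha.mul hp hb)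
      (flat_one hp _)
    intro j hj
    by_cases hej : e j = 0
    · rw [hej, pow_zero]; exact flat_one hp _
    · have hle : i0 ≤ j := hmin j (Finset.mem_filter.mpr ⟨Finset.mem_univ j, hej⟩)
      have hlt : i0 < j := lt_of_le_of_ne hle (Finset.ne_of_mem_erase hj).symm
      exact (((hlev j).flat).mono (hd i0 j hlt)).pow hp _
  have hL : Lev l p (d i0) (∏ i, x i ^ e i) := by
    rw [hprod]
    exact ((hlev i0).pow hp (hd1 i0) (Nat.pos_of_ne_zero hi0') (he i0)).mul_flat hp hflat
  exact hL.not_int hp hl hlp hint (hd1 i0) (hd2 i0) h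

end levels

section model

variable {R : Type*} [CommRing R]

/-- value of a coefficient list at `l` (Horner) -/
def ev (l : R) : List ℕ → R
  | [] => 0
  | a :: L => (a : R) + l * ev l L

/-- coefficientwise sum -/
def addL : List ℕ → List ℕ → List ℕ
  | [], M => M
  | a :: L, [] => a :: L
  | a :: L, b :: M => (a + b) :: addL L M

/-- product (no truncation) -/
def mulL : List ℕ → List ℕ → List ℕ
  | [], _ => []
  | a :: L, M => addL (M.map (a * ·)) (0 :: mulL L M)

/-- truncate at length `N` and reduce coefficients modulo `p` -/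
def redL (p N : ℕ) (L : List ℕ) : List ℕ := (L.take N).map (· % p)

/-- truncated product -/
def mulM (p N : ℕ) (L M : List ℕ) : List ℕ := redL p N (mulL L M)

/-- truncated power -/
def powM (p N : ℕ) (L : List ℕ) : ℕ → List ℕ
  | 0 => [1]
  | k + 1 => mulM p N (powM p N L k) L

/-- coefficient list of `1 + ζ + ... + ζ ^ (a - 1)` in terms of `l = ζ - 1` -/
def xiL : ℕ → List ℕ
  | 0 => []
  | a + 1 => addL [1] (mulL [1, 1] (xiL a))

/-- the product `ξ_a ^ e₀ * ξ_{a+1} ^ e₁ * ...` where `ξ_a = 1 + ζ + ... + ζ ^ (a - 1)` -/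
def prodXi (ζ : R) : ℕ → List ℕ → R
  | _, [] => 1
  | a, e :: E => (∑ i ∈ Finset.range a, ζ ^ i) ^ e * prodXi ζ (a + 1) E

/-- model of `prodXi` -/
def prodXiL (p N : ℕ) : ℕ → List ℕ → List ℕ
  | _, [] => [1]
  | a, e :: E => mulM p N (powM p N (xiL a) e) (prodXiL p N (a + 1) E)

/-- the element `ζ ^ e₀ * ξ_2 ^ e₂ * ξ_3 ^ e₃ * ...` -/
def uval (ζ : R) (e0 : ℕ) (E : List ℕ) : R := ζ ^ e0 * prodXi ζ 2 E

/-- model of `uval` -/
def umodel (p N e0 : ℕ) (E : List ℕ) : List ℕ :=
  mulM p N (powM p N [1, 1] e0) (prodXiL p N 2 E)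

/-- `L` starts with `k` zeros followed by an entry prime to `p` -/
def leadL (p : ℕ) : ℕ → List ℕ → Bool
  | _, [] => false
  | 0, B :: _ => decide (B % p ≠ 0)
  | k + 1, a :: L => decide (a = 0) && leadL p k L

/-- `L = A :: 0 :: ... :: 0 :: B :: _` with `A`, `B` prime to `p` and `B` at position `d` -/
def checkLev (p d : ℕ) : List ℕ → Bool
  | [] => false
  | A :: L => decide (A % p ≠ 0) && leadL p (d - 1) L

variable (l : R)

theorem ev_addL (L M : List ℕ) : ev l (addL L M) = ev l L + ev l M := by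
  induction L generalizing M with
  | nil => simp [addL, ev]
  | cons a L ih =>
    cases M with
    | nil => simp [addL, ev]
    | cons b M => simp only [addL, ev, ih]; push_cast; ring

theorem ev_map_mul (c : ℕ) (L : List ℕ) : ev l (L.map (c * ·)) = c * ev l L := by
  induction L with
  | nil => simp [ev]
  | cons a L ih => simp only [List.map_cons, ev, ih]; push_cast; ring

theorem ev_mulL (L M : List ℕ) : ev l (mulL L M) = ev l L * ev l M := by
  induction L with
  | nil => simp [mulL, ev]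
  | cons a L ih =>
    simp only [mulL, ev_addL, ev_map_mul, ev, ih]
    push_cast
    ring

theorem ev_take (N : ℕ) (L : List ℕ) : l ^ N ∣ ev l L - ev l (L.take N) := by
  induction N generalizing L with
  | zero => simp
  | succ N ih =>
    cases L with
    | nil => simp
    | cons a L =>
      obtain ⟨t, ht⟩ := ih L
      refine ⟨t, ?_⟩
      simp only [List.take_succ_cons, ev]
      linear_combination l * ht

theorem ev_map_mod (p : ℕ) (L : List ℕ) : (p : R) ∣ ev l L - ev l (L.map (· % p)) := by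
  induction L with
  | nil => simp
  | cons a L ih =>
    obtain ⟨t, ht⟩ := ih
    refine ⟨(a / p : ℕ) + l * t, ?_⟩
    simp only [List.map_cons, ev]
    have h1 : (a : R) = ((a % p : ℕ) : R) + (p : R) * ((a / p : ℕ) : R) := by
      exact_mod_cast congrArg (Nat.cast : ℕ → R) (Nat.mod_add_div a p).symm
    linear_combination h1 + l * ht

theorem ev_redL {p N : ℕ} (hpl : l ^ N ∣ (p : R)) (L : List ℕ) :
    l ^ N ∣ ev l L - ev l (redL p N L) := by
  have h1 := ev_take l N L
  have h2 := hpl.trans (ev_map_mod l p (L.take N))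
  have := dvd_add h1 h2
  simpa [redL] using this

theorem cong_mulM {p N : ℕ} (hpl : l ^ N ∣ (p : R)) {x y : R} {L M : List ℕ}
    (hx : l ^ N ∣ x - ev l L) (hy : l ^ N ∣ y - ev l M) :
    l ^ N ∣ x * y - ev l (mulM p N L M) := by
  have h1 : l ^ N ∣ x * y - ev l (mulL L M) := by
    rw [ev_mulL]
    have : x * y - ev l L * ev l M = (x - ev l L) * y + ev l L * (y - ev l M) := by ring
    rw [this]
    exact dvd_add (Dvd.dvd.mul_right hx _) (Dvd.dvd.mul_left hy _)
  have h2 := ev_redL l hpl (mulL L M)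
  have := dvd_add h1 h2
  simpa [mulM] using this

theorem cong_powM {p N : ℕ} (hpl : l ^ N ∣ (p : R)) {x : R} {L : List ℕ}
    (hx : l ^ N ∣ x - ev l L) (k : ℕ) : l ^ N ∣ x ^ k - ev l (powM p N L k) := by
  induction k with
  | zero => simp [powM, ev]
  | succ k ih => rw [pow_succ]; exact cong_mulM l hpl ih hx

theorem ev_xiL (ζ : R) (a : ℕ) : ev (ζ - 1) (xiL a) = ∑ i ∈ Finset.range a, ζ ^ i := by
  induction a with
  | zero => simp [xiL, ev]
  | succ a ih =>
    have h1 : ev (ζ - 1) (xiL (a + 1)) = 1 + ζ * ev (ζ - 1) (xiL a) := by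
      simp only [xiL, ev_addL, ev_mulL, ev]
      push_cast
      ring
    rw [h1, ih, Finset.sum_range_succ', Finset.mul_sum, pow_zero, add_comm]
    congr 1
    apply Finset.sum_congr rfl
    intro i _
    ring

theorem cong_prodXi {p N : ℕ} (ζ : R) (hpl : (ζ - 1) ^ N ∣ (p : R)) (a : ℕ) (E : List ℕ) :
    (ζ - 1) ^ N ∣ prodXi ζ a E - ev (ζ - 1) (prodXiL p N a E) := by
  induction E generalizing a with
  | nil => simp [prodXi, prodXiL, ev]
  | cons e E ih =>
    simp only [prodXi, prodXiL]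
    refine cong_mulM _ hpl (cong_powM _ hpl ?_ e) (ih (a + 1))
    rw [ev_xiL, sub_self]
    exact dvd_zero _

theorem cong_uval {p N : ℕ} (ζ : R) (hpl : (ζ - 1) ^ N ∣ (p : R)) (e0 : ℕ) (E : List ℕ) :
    (ζ - 1) ^ N ∣ uval ζ e0 E - ev (ζ - 1) (umodel p N e0 E) := by
  refine cong_mulM _ hpl (cong_powM _ hpl ?_ e0) (cong_prodXi ζ hpl 2 E)
  have : ev (ζ - 1) [1, 1] = ζ := by simp [ev]
  rw [this, sub_self]
  exact dvd_zero _

theorem leadL_spec (p : ℕ) (k : ℕ) (L : List ℕ) (h : leadL p k L = true) :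
    ∃ B : ℕ, ¬ p ∣ B ∧ ∃ r : R, ev l L = l ^ k * ((B : R) + l * r) := by
  induction k generalizing L with
  | zero =>
    cases L with
    | nil => simp [leadL] at h
    | cons B L =>
      simp only [leadL, decide_eq_true_eq] at h
      exact ⟨B, fun hd => h (Nat.mod_eq_zero_of_dvd hd), ev l L, by simp [ev]⟩
  | succ k ih =>
    cases L with
    | nil => simp [leadL] at h
    | cons a L =>
      simp only [leadL, Bool.and_eq_true, decide_eq_true_eq] at h
      obtain ⟨B, hB, r, hr⟩ := ih L h.2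
      refine ⟨B, hB, r, ?_⟩
      simp only [ev, h.1, hr]
      push_cast
      ring

/-- A model list passing `checkLev` certifies the level. -/
theorem lev_of_checkLev {p N d : ℕ} (hd1 : 1 ≤ d) (hdN : d + 1 ≤ N) {u : R} {L : List ℕ}
    (hu : l ^ N ∣ u - ev l L) (hc : checkLev p d L = true) : Lev l p d u := by
  cases L with
  | nil => simp [checkLev] at hc
  | cons A L =>
    simp only [checkLev, Bool.and_eq_true, decide_eq_true_eq] at hc
    obtain ⟨B, hB, r, hr⟩ := leadL_spec l p (d - 1) L hc.2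
    refine ⟨A, B, ?_, ?_, ?_⟩
    · intro hd
      exact hc.1 (Nat.mod_eq_zero_of_dvd (Int.natCast_dvd_natCast.mp hd))
    · intro hd
      exact hB (Int.natCast_dvd_natCast.mp hd)
    · obtain ⟨t, ht⟩ := (pow_dvd_pow l hdN).trans hu
      refine ⟨t + r, ?_⟩
      have hdd : d + 1 = (d - 1) + 2 := by omega
      have hd' : d = (d - 1) + 1 := by omega
      have e1 : ev l (A :: L) = (A : R) + l * (l ^ (d - 1) * ((B : R) + l * r)) := by
        simp only [ev, hr]
      have e2 : l ^ (d + 1) = l ^ (d - 1) * l ^ 2 := by rw [hdd, pow_add]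
      have e3 : l ^ d = l ^ (d - 1) * l := by conv_lhs => rw [hd', pow_succ]
      push_cast
      rw [e2, e3]
      rw [e2] at ht
      linear_combination ht + e1

end model

end Fermat.Agent.Kummer
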