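import Mathlib
import Fermat.Agent.Lib.Kummer.Defs
import Fermat.Agent.Lib.Kummer.Residue

/-!
# Kummer's lemma from independent units (unit theorem + counting)

The unit group of the `p`-th cyclotomic field is generated by `(p - 1) / 2` elements
(a generator of the torsion and a fundamental system), so the group of units modulo `p`-th
powers has at most `p ^ ((p - 1) / 2)` elements.  If `(p - 1) / 2` given units are independent
modulo units congruent to rational integers modulo `p`, they represent every class, and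
Kummer's lemma follows.
-/

set_option autoImplicit false
set_option linter.unusedSectionVars false

namespace Fermat.Agent.Kummer.Dir6

open NumberField

section group

variable {G : Type*} [CommGroup G] {p : ℕ}

theorem zpow_eq_pow_val [NeZero p] (hG : ∀ x : G, x ^ p = 1) (x : G) (n : ℤ) :
    x ^ n = x ^ ((n : ZMod p)).val := by
  have h1 : x ^ n = x ^ (n % (p : ℤ)) := zpow_eq_zpow_emod' n (hG x)
  rw [h1, ← zpow_natCast, ZMod.val_intCast]

theorem card_le_of_generators [NeZero p] (hG : ∀ x : G, x ^ p = 1) {s : ℕ} (g : Fin s → G)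
    (hg : ∀ x : G, ∃ n : Fin s → ℤ, x = ∏ i, g i ^ n i) : Finite G ∧ Nat.card G ≤ p ^ s := by
  have hsurj : Function.Surjective (fun e : Fin s → ZMod p => ∏ i, g i ^ (e i).val) := by
    intro x
    obtain ⟨n, rfl⟩ := hg x
    exact ⟨fun i => (n i : ZMod p),
      Finset.prod_congr rfl fun i _ => (zpow_eq_pow_val hG _ _).symm⟩
  have hfin : Finite G := Finite.of_surjective _ hsurj
  refine ⟨hfin, ?_⟩
  calc Nat.card G ≤ Nat.card (Fin s → ZMod p) := Nat.card_le_card_of_surjective _ hsurj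
    _ = p ^ s := by simp

theorem exists_rep_of_indep [NeZero p] (hG : ∀ x : G, x ^ p = 1) {s : ℕ} [Finite G]
    (hcard : Nat.card G ≤ p ^ s) (h : Fin s → G)
    (hind : ∀ e : Fin s → ℕ, (∀ i, e i < p) → ∏ i, h i ^ e i = 1 → ∀ i, e i = 0) (x : G) :
    ∃ e : Fin s → ℕ, (∀ i, e i < p) ∧ x = ∏ i, h i ^ e i := by
  have hinj : Function.Injective (fun e : Fin s → ZMod p => ∏ i, h i ^ (e i).val) := by
    intro e e' hee
    have hee' : ∏ i, h i ^ (e i).val = ∏ i, h i ^ (e' i).val := hee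
    have h1 : ∏ i, h i ^ ((e i - e' i)).val = 1 := by
      have key : ∀ i, h i ^ ((e i - e' i)).val = h i ^ (e i).val * (h i ^ (e' i).val)⁻¹ := by
        intro i
        have h2 := zpow_eq_pow_val hG (h i) (((e i).val : ℤ) - ((e' i).val : ℤ))
        have h3 : ((((e i).val : ℤ) - ((e' i).val : ℤ) : ℤ) : ZMod p) = e i - e' i := by
          push_cast
          simp
        rw [h3] at h2
        rw [← h2, zpow_sub, zpow_natCast, zpow_natCast]
      rw [Finset.prod_congr rfl (fun i _ => key i), Finset.prod_mul_distrib, Finset.prod_inv_distrib,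
        hee', mul_inv_cancel]
    have h2 := hind (fun i => (e i - e' i).val) (fun i => ZMod.val_lt _) h1
    funext i
    exact sub_eq_zero.mp ((ZMod.val_eq_zero _).mp (h2 i))
  have hbij : Function.Bijective (fun e : Fin s → ZMod p => ∏ i, h i ^ (e i).val) := by
    refine (Nat.bijective_iff_injective_and_card _).mpr ⟨hinj, ?_⟩
    have h1 : Nat.card (Fin s → ZMod p) = p ^ s := by simp
    have h2 : Nat.card (Fin s → ZMod p) ≤ Nat.card G := Nat.card_le_card_of_injective _ hinj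
    omega
  obtain ⟨e, rfl⟩ := hbij.2 x
  exact ⟨fun i => (e i).val, fun i => ZMod.val_lt _, rfl⟩

end group

section numberfield

open NumberField.Units NumberField.InfinitePlace

variable {p : ℕ} [hp : Fact p.Prime] (K : Type*) [Field K] [NumberField K]
  [IsCyclotomicExtension {p} ℚ K]

theorem rank_add_one (hp2 : p ≠ 2) : Units.rank K + 1 = (p - 1) / 2 := by
  have h2 : 2 < p := lt_of_le_of_ne hp.out.two_le (Ne.symm hp2)
  have hcard : Fintype.card (InfinitePlace K) = (p - 1) / 2 := by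
    rw [card_eq_nrRealPlaces_add_nrComplexPlaces,
      IsCyclotomicExtension.Rat.nrRealPlaces_eq_zero (n := p) K h2, zero_add,
      IsCyclotomicExtension.Rat.nrComplexPlaces_eq_totient_div_two (n := p),
      Nat.totient_prime hp.out]
  unfold Units.rank
  rw [hcard]
  omega

theorem exists_generators : ∃ g : Fin (Units.rank K + 1) → (𝓞 K)ˣ,
    ∀ x : (𝓞 K)ˣ, ∃ n : Fin (Units.rank K + 1) → ℤ, x = ∏ i, g i ^ n i := by
  obtain ⟨t, ht⟩ := IsCyclic.exists_generator (α := Units.torsion K)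
  refine ⟨Fin.cons (t : (𝓞 K)ˣ) (Units.fundSystem K), fun x => ?_⟩
  obtain ⟨⟨τ, n⟩, hx, -⟩ := Units.exist_unique_eq_mul_prod K x
  obtain ⟨m, hm⟩ := Subgroup.mem_zpowers_iff.mp (ht τ)
  refine ⟨Fin.cons m n, ?_⟩
  rw [Fin.prod_univ_succ]
  simp only [Fin.cons_zero, Fin.cons_succ]
  rw [hx]
  congr 1
  rw [← hm]
  simp

theorem kummerLemma_of_indep (hp2 : p ≠ 2) (h : Fin ((p - 1) / 2) → (𝓞 K)ˣ)
    (hind : ∀ e : Fin ((p - 1) / 2) → ℕ, (∀ i, e i < p) →
      (∃ n : ℤ, (p : 𝓞 K) ∣ ((∏ i, h i ^ e i : (𝓞 K)ˣ) : 𝓞 K) - (n : 𝓞 K)) → ∀ i, e i = 0) :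
    KummerLemma p K := by
  have hpp := hp.out
  have hζ := IsCyclotomicExtension.zeta_spec p ℚ K
  let H : Subgroup (𝓞 K)ˣ := (powMonoidHom p : (𝓞 K)ˣ →* (𝓞 K)ˣ).range
  have hG : ∀ x : (𝓞 K)ˣ ⧸ H, x ^ p = 1 := by
    intro x
    obtain ⟨u, rfl⟩ := QuotientGroup.mk_surjective x
    rw [← QuotientGroup.mk_pow, QuotientGroup.eq_one_iff]
    exact ⟨u, rfl⟩
  obtain ⟨g, hg⟩ := exists_generators K
  have hgen : ∀ x : (𝓞 K)ˣ ⧸ H, ∃ n : Fin (Units.rank K + 1) → ℤ,
      x = ∏ i, (QuotientGroup.mk (g i) : (𝓞 K)ˣ ⧸ H) ^ n i := by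
    intro x
    obtain ⟨u, rfl⟩ := QuotientGroup.mk_surjective x
    obtain ⟨n, hn⟩ := hg u
    exact ⟨n, by rw [hn, QuotientGroup.mk_prod]; simp⟩
  obtain ⟨hfin, hcard⟩ := card_le_of_generators hG _ hgen
  rw [rank_add_one K hp2] at hcard
  have hind' : ∀ e : Fin ((p - 1) / 2) → ℕ, (∀ i, e i < p) →
      ∏ i, (QuotientGroup.mk (h i) : (𝓞 K)ˣ ⧸ H) ^ e i = 1 → ∀ i, e i = 0 := by
    intro e he hprod
    apply hind e he
    have hmem : (∏ i, h i ^ e i) ∈ H := by
      rw [← QuotientGroup.eq_one_iff, QuotientGroup.mk_prod]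
      simpa using hprod
    obtain ⟨w, hw⟩ := hmem
    obtain ⟨n, hn⟩ := exists_int_pow_sub_dvd hζ (w : 𝓞 K)
    refine ⟨n, ?_⟩
    rw [← hw]
    simpa using hn
  rintro u ⟨n, hn⟩
  obtain ⟨e, he, hrep⟩ := exists_rep_of_indep hG hcard
    (fun i => (QuotientGroup.mk (h i) : (𝓞 K)ˣ ⧸ H)) hind' (QuotientGroup.mk u)
  have h1 : (QuotientGroup.mk u : (𝓞 K)ˣ ⧸ H) = QuotientGroup.mk (∏ i, h i ^ e i) := by
    rw [hrep, QuotientGroup.mk_prod]
    simp
  rw [QuotientGroup.eq] at h1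
  obtain ⟨w, hw⟩ := h1
  have hw' : ∏ i, h i ^ e i = u * w ^ p := by
    have : w ^ p = u⁻¹ * ∏ i, h i ^ e i := hw
    rw [this]
    group
  obtain ⟨m, hm⟩ := exists_int_pow_sub_dvd hζ (w : 𝓞 K)
  have hint : ∃ k : ℤ, (p : 𝓞 K) ∣ ((∏ i, h i ^ e i : (𝓞 K)ˣ) : 𝓞 K) - (k : 𝓞 K) := by
    refine ⟨n * m, ?_⟩
    rw [hw']
    obtain ⟨a, ha⟩ := hn
    obtain ⟨b, hb⟩ := hm
    refine ⟨a * (w : 𝓞 K) ^ p + n * b, ?_⟩
    push_cast
    linear_combination ((w : 𝓞 K) ^ p) * ha + (n : 𝓞 K) * hb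
  have he0 := hind e he hint
  have h2 : u * w ^ p = 1 := by
    rw [← hw']
    simp [he0]
  exact ⟨w⁻¹, by rw [inv_pow]; exact eq_inv_of_mul_eq_one_left h2⟩

end numberfield

end Fermat.Agent.Kummer.Dir6
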