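import Fermat.Agent.Lib.Kummer.Defs
import Fermat.Agent.Lib.Kummer.Levels
import Fermat.Agent.Lib.Kummer.Residue
import Fermat.Agent.Lib.Kummer.UnitIndep

/-!
# Kummer's lemma for `p = 5, 7, 11, 13`

Explicit cyclotomic units `ζ ^ e₀ * ξ_2 ^ e₂ * ξ_3 ^ e₃ * ...` (with `ξ_a = 1 + ζ + ... + ζ ^ (a-1)`)
whose leading terms modulo powers of `ζ - 1` sit in the pairwise distinct degrees
`1, 2, 4, ..., p - 3`; together with the unit theorem (`Dir6.kummerLemma_of_indep`) this gives
Kummer's lemma.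
-/

set_option autoImplicit false

namespace Fermat.Agent.Kummer

open NumberField

section units

variable {R : Type*} [CommRing R] [IsDomain R]

theorem isUnit_prodXi {p : ℕ} (hp : p.Prime) {ζ : R} (hζ : IsPrimitiveRoot ζ p) (a : ℕ)
    (E : List ℕ) (h1 : 1 ≤ a) (h2 : a + E.length ≤ p) : IsUnit (prodXi ζ a E) := by
  induction E generalizing a with
  | nil => simp [prodXi]
  | cons e E ih =>
    simp only [prodXi]
    have h2' : a + (E.length + 1) ≤ p := by simpa using h2
    refine IsUnit.mul (IsUnit.pow _ (hζ.geom_sum_isUnit hp.two_le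
      (Nat.coprime_of_lt_prime (by omega) (by omega) hp).symm)) (ih (a + 1) (by omega) (by omega))

theorem isUnit_uval {p : ℕ} (hp : p.Prime) {ζ : R} (hζ : IsPrimitiveRoot ζ p) (e0 : ℕ)
    (E : List ℕ) (h2 : 2 + E.length ≤ p) : IsUnit (uval ζ e0 E) :=
  IsUnit.mul ((hζ.isUnit hp.ne_zero).pow _) (isUnit_prodXi hp hζ 2 E (by omega) h2)

end units

/-- Kummer's lemma from a certificate: exponent vectors of cyclotomic units with strictly
increasing levels, checked on the list model. -/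
theorem kummer_of_data (p : ℕ) [Fact p.Prime] (K : Type*) [Field K] [NumberField K]
    [IsCyclotomicExtension {p} ℚ K] (s : ℕ) (hs : 2 * s + 1 = p) (e0 : Fin s → ℕ)
    (E : Fin s → List ℕ) (d : Fin s → ℕ)
    (hd : ∀ i j : Fin s, i < j → d i < d j) (hd1 : ∀ i, 1 ≤ d i) (hd2 : ∀ i, d i + 2 ≤ p)
    (hlen : ∀ i, 2 + (E i).length ≤ p)
    (hcheck : ∀ i, checkLev p (d i) (umodel p (p - 1) (e0 i) (E i)) = true) :
    KummerLemma p K := by
  have hp : p.Prime := Fact.out
  have hp2 : p ≠ 2 := by omega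
  have hs' : s = (p - 1) / 2 := by omega
  subst hs'
  have hζ : IsPrimitiveRoot (IsCyclotomicExtension.zeta p ℚ K) p :=
    IsCyclotomicExtension.zeta_spec p ℚ K
  set z : 𝓞 K := hζ.toInteger with hz
  have hzprim : IsPrimitiveRoot z p := hζ.toInteger_isPrimitiveRoot
  have hl : Prime (z - 1) := hζ.zeta_sub_one_prime'
  have hlp : Associated ((z - 1) ^ (p - 1)) (p : 𝓞 K) := associated_lam_pow hζ
  have hint : ∀ n : ℤ, z - 1 ∣ (n : 𝓞 K) → (p : ℤ) ∣ n :=
    fun n h => int_dvd_of_zeta_sub_one_dvd hζ h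
  have hunit : ∀ i, IsUnit (uval z (e0 i) (E i)) := fun i => isUnit_uval hp hzprim _ _ (hlen i)
  have hlev : ∀ i, Lev (z - 1) p (d i) (uval z (e0 i) (E i)) := fun i =>
    lev_of_checkLev (z - 1) (hd1 i) (by have := hd2 i; omega)
      (cong_uval z hlp.dvd (e0 i) (E i)) (hcheck i)
  refine Dir6.kummerLemma_of_indep K hp2 (fun i => (hunit i).unit) ?_
  intro e he hn
  refine indep_of_lev hp hl hlp hint (fun i => uval z (e0 i) (E i)) d hd hd1 hd2 hlev e he ?_
  simpa [Units.coe_prod] using hn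

theorem kummer_five (K : Type*) [Field K] [NumberField K] [IsCyclotomicExtension {5} ℚ K] :
    KummerLemma 5 K :=
  haveI : Fact (Nat.Prime 5) := ⟨by norm_num⟩
  kummer_of_data 5 K 2 rfl ![1, 2] ![[], [1]] ![1, 2]
    (by decide) (by decide) (by decide) (by decide) (by decide)

theorem kummer_seven (K : Type*) [Field K] [NumberField K] [IsCyclotomicExtension {7} ℚ K] :
    KummerLemma 7 K :=
  haveI : Fact (Nat.Prime 7) := ⟨by norm_num⟩
  kummer_of_data 7 K 3 rfl ![1, 3, 5] ![[], [1], [2, 1]] ![1, 2, 4]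
    (by decide) (by decide) (by decide) (by decide) (by decide)

theorem kummer_eleven (K : Type*) [Field K] [NumberField K] [IsCyclotomicExtension {11} ℚ K] :
    KummerLemma 11 K :=
  haveI : Fact (Nat.Prime 11) := ⟨by norm_num⟩
  kummer_of_data 11 K 5 rfl ![1, 5, 4, 5, 1] ![[], [1], [1, 1], [7, 1, 1], [5, 3, 9, 1]]
    ![1, 2, 4, 6, 8]
    (by decide) (by decide) (by decide) (by decide) (by decide)

theorem kummer_thirteen (K : Type*) [Field K] [NumberField K]
    [IsCyclotomicExtension {13} ℚ K] : KummerLemma 13 K :=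
  haveI : Fact (Nat.Prime 13) := ⟨by norm_num⟩
  kummer_of_data 13 K 6 rfl ![1, 6, 9, 6, 1, 2]
    ![[], [1], [6, 1], [7, 2, 1], [12, 11, 4, 1], [3, 10, 12, 9, 1]]
    ![1, 2, 4, 6, 8, 10]
    (by decide) (by decide) (by decide) (by decide) (by decide)

end Fermat.Agent.Kummer
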