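/-
Generic tools for proving that the ring of integers of a prime cyclotomic field is a PID
(project K: S10/S11 via Kummer).  Pure Mathlib.
-/
import Mathlib

set_option autoImplicit false

open NumberField Ideal Module

namespace Fermat.Agent.Kummer

/-- A computable check that no small power of `q` is `1` modulo `p`. -/
def ordCheck (p B q : ℕ) : Bool :=
  (List.range (B + 1)).all fun j => j == 0 || decide (B < q ^ j) || decide (q ^ j % p ≠ 1)

theorem ordCheck_sound {p B q : ℕ} (hp : 1 < p) (hq : 2 ≤ q) (h : ordCheck p B q = true)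
    (j : ℕ) (hj : 0 < j) (hle : q ^ j ≤ B) : (q : ZMod p) ^ j ≠ 1 := by
  have hjB : j < B + 1 := by
    have h1 : j < 2 ^ j := Nat.lt_two_pow_self
    have h2 : 2 ^ j ≤ q ^ j := Nat.pow_le_pow_left hq j
    omega
  have h' := List.all_eq_true.mp h j (List.mem_range.mpr hjB)
  simp only [Bool.or_eq_true, beq_iff_eq, decide_eq_true_eq] at h'
  rcases h' with (h' | h') | h'
  · omega
  · omega
  · intro hone
    apply h'
    have h3 : ((q ^ j : ℕ) : ZMod p) = ((1 : ℕ) : ZMod p) := by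
      push_cast
      exact hone
    have h4 := (ZMod.natCast_eq_natCast_iff' _ _ _).mp h3
    rw [h4, Nat.one_mod_eq_one.mpr (by omega)]

section Cyclotomic

variable (p : ℕ) [hp : Fact p.Prime] (K : Type*) [Field K] [NumberField K]
  [hK : IsCyclotomicExtension {p} ℚ K]

omit [NumberField K] hK in
/-- The sum of the powers of `ζ` vanishes. -/
theorem zeta_sum_eq_zero {ζ : K} (hζ : IsPrimitiveRoot ζ p) :
    ∑ i ∈ Finset.range p, hζ.toInteger ^ i = 0 :=
  hζ.toInteger_isPrimitiveRoot.geom_sum_eq_zero hp.out.one_lt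

/-- Mathlib's Minkowski constant for the `p`-th cyclotomic field, made explicit. -/
theorem minkowski_eq :
    (4 / Real.pi) ^ InfinitePlace.nrComplexPlaces K *
        (((finrank ℚ K).factorial : ℝ) / (finrank ℚ K : ℝ) ^ finrank ℚ K * √|(discr K : ℝ)|) =
      (4 / Real.pi) ^ ((p - 1) / 2) *
        (((p - 1).factorial : ℝ) / ((p - 1 : ℕ) : ℝ) ^ (p - 1) * √((p : ℝ) ^ (p - 2))) := by
  rw [IsCyclotomicExtension.Rat.discr_prime p K,
    IsCyclotomicExtension.finrank (n := p) K
      (Polynomial.cyclotomic.irreducible_rat hp.out.pos),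
    IsCyclotomicExtension.Rat.nrComplexPlaces_eq_totient_div_two p, Nat.totient_prime hp.out]
  congr 3
  push_cast
  rw [abs_mul, abs_pow, abs_pow, abs_neg, abs_one, one_pow, one_mul, Nat.abs_cast]

/-- The prime above `p` is principal. -/
theorem exists_principal_prime_over_self :
    ∃ P ∈ primesOver (span {(p : ℤ)}) (𝓞 K), Submodule.IsPrincipal P := by
  have hζ := IsCyclotomicExtension.zeta_spec p ℚ K
  have hK' : IsCyclotomicExtension {p ^ (0 + 1)} ℚ K := by
    rw [zero_add, pow_one]; exact hK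
  have hζ' : IsPrimitiveRoot (IsCyclotomicExtension.zeta p ℚ K) (p ^ (0 + 1)) := by
    rw [zero_add, pow_one]; exact hζ
  refine ⟨span {hζ'.toInteger - 1}, ⟨?_, ?_⟩, ⟨_, rfl⟩⟩
  · exact IsCyclotomicExtension.Rat.isPrime_span_zeta_sub_one p 0 hζ'
  · exact IsCyclotomicExtension.Rat.liesOver_span_zeta_sub_one p 0 hζ'

/-- A prime `q ≠ p` all of whose small powers are `≠ 1` mod `p` has only primes of large norm
above it. -/
theorem lt_pow_inertiaDeg {q : ℕ} (hq : q.Prime) (hqp : q ≠ p) (B : ℕ)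
    (h : ∀ j, 0 < j → q ^ j ≤ B → (q : ZMod p) ^ j ≠ 1)
    (P : Ideal (𝓞 K)) (hP : P ∈ primesOver (span {(q : ℤ)}) (𝓞 K)) :
    B < q ^ P.inertiaDeg ℤ := by
  have : Fact q.Prime := ⟨hq⟩
  have hP1 : P.IsPrime := hP.1
  have hP2 : P.LiesOver (span {(q : ℤ)}) := hP.2
  have hndvd : ¬ q ∣ p := fun hd => hqp ((Nat.prime_dvd_prime_iff_eq hq hp.out).mp hd)
  have hpne : NeZero p := ⟨hp.out.ne_zero⟩
  rw [IsCyclotomicExtension.Rat.inertiaDeg_eq_of_not_dvd q K P hndvd]
  by_contra hcon
  rw [not_lt] at hcon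
  have hne : (q : ZMod p) ≠ 0 := by
    rw [Ne, ZMod.natCast_eq_zero_iff]
    exact fun hd => hqp ((Nat.prime_dvd_prime_iff_eq hp.out hq).mp hd).symm
  have hpos : 0 < orderOf (q : ZMod p) := by
    have h1 : orderOf (Units.mk0 (q : ZMod p) hne) = orderOf (q : ZMod p) := by
      rw [← orderOf_units]
      rfl
    rw [← h1]
    exact orderOf_pos _
  exact h _ hpos hcon (pow_orderOf_eq_one _)

/-- Certificate for a principal prime of residue degree one above `q`: an element `α` dividing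
`q` and `ζ - a`, and killed by every ring hom to `ZMod q` that sends `ζ` to `a`. -/
theorem exists_principal_prime_over {ζ : K} (hζ : IsPrimitiveRoot ζ p) (q : ℕ) [hq : Fact q.Prime]
    (a : ℤ) (ha : ∑ i ∈ Finset.range p, (a : ZMod q) ^ i = 0)
    (α β γ : 𝓞 K) (hαβ : α * β = (q : 𝓞 K)) (hαγ : α * γ = hζ.toInteger - (a : 𝓞 K))
    (hα : ∀ φ : 𝓞 K →+* ZMod q, φ hζ.toInteger = (a : ZMod q) → φ α = 0) :
    ∃ P ∈ primesOver (span {(q : ℤ)}) (𝓞 K), Submodule.IsPrincipal P := by
  have hpne : NeZero p := ⟨hp.out.ne_zero⟩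
  -- the evaluation homomorphism
  have hmin : Polynomial.aeval (a : ZMod q) (minpoly ℤ hζ.integralPowerBasis.gen) = 0 := by
    rw [IsPrimitiveRoot.integralPowerBasis_gen]
    have h1 : minpoly ℤ hζ.toInteger = Polynomial.cyclotomic p ℤ := by
      rw [Polynomial.cyclotomic_eq_minpoly hζ hp.out.pos]
      exact (minpoly.algebraMap_eq (FaithfulSMul.algebraMap_injective (𝓞 K) K) hζ.toInteger).symm
    rw [h1, Polynomial.cyclotomic_prime, map_sum]
    simpa using ha
  let φ₀ : 𝓞 K →ₐ[ℤ] ZMod q := hζ.integralPowerBasis.lift (a : ZMod q) hmin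
  have hφζ : φ₀ hζ.toInteger = (a : ZMod q) := by
    have := hζ.integralPowerBasis.lift_gen (a : ZMod q) hmin
    rwa [IsPrimitiveRoot.integralPowerBasis_gen] at this
  have hφα : φ₀ α = 0 := hα φ₀.toRingHom hφζ
  -- every element is congruent to an integer modulo `α`
  have hint : ∀ x : 𝓞 K, ∃ n : ℤ, α ∣ x - (n : 𝓞 K) := by
    intro x
    have hx : x ∈ Algebra.adjoin ℤ {hζ.toInteger} := by
      rw [IsCyclotomicExtension.Rat.adjoin_singleton_eq_top hζ]
      exact Algebra.mem_top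
    induction hx using Algebra.adjoin_induction with
    | mem x hx =>
      rw [Set.mem_singleton_iff] at hx
      exact ⟨a, hx ▸ ⟨γ, hαγ.symm⟩⟩
    | algebraMap r => exact ⟨r, by simp⟩
    | add x y _ _ hx hy =>
      obtain ⟨n, hn⟩ := hx
      obtain ⟨m, hm⟩ := hy
      refine ⟨n + m, ?_⟩
      have : x + y - ((n + m : ℤ) : 𝓞 K) = (x - n) + (y - m) := by push_cast; ring
      rw [this]
      exact dvd_add hn hm
    | mul x y _ _ hx hy =>
      obtain ⟨n, hn⟩ := hx
      obtain ⟨m, hm⟩ := hy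
      refine ⟨n * m, ?_⟩
      have : x * y - ((n * m : ℤ) : 𝓞 K) = (x - n) * y + n * (y - m) := by push_cast; ring
      rw [this]
      exact dvd_add (Dvd.dvd.mul_right hn _) (Dvd.dvd.mul_left hm _)
  have hker : RingHom.ker φ₀.toRingHom = span {α} := by
    apply le_antisymm
    · intro x hx
      rw [RingHom.mem_ker] at hx
      obtain ⟨n, w, hw⟩ := hint x
      have hx' : x = (n : 𝓞 K) + α * w := by rw [← hw]; ring
      have h0 : (n : ZMod q) = 0 := by
        have := hx
        rw [hx', map_add, map_mul] at this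
        have hα0 : φ₀.toRingHom α = 0 := hφα
        rw [hα0, zero_mul, add_zero, map_intCast] at this
        exact this
      obtain ⟨m, rfl⟩ := (ZMod.intCast_zmod_eq_zero_iff_dvd n q).mp h0
      rw [mem_span_singleton, hx']
      refine dvd_add ?_ (dvd_mul_right _ _)
      refine ⟨β * m, ?_⟩
      rw [← mul_assoc, hαβ]
      push_cast
      ring
    · rw [span_singleton_le_iff_mem, RingHom.mem_ker]
      exact hφα
  refine ⟨RingHom.ker φ₀.toRingHom, ⟨RingHom.ker_isPrime _, ?_⟩, ?_⟩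
  · rw [liesOver_iff]
    ext x
    rw [mem_span_singleton, under_def, mem_comap, RingHom.mem_ker]
    have h1 : φ₀.toRingHom (algebraMap ℤ (𝓞 K) x) = (x : ZMod q) := by
      simp
    rw [h1, ZMod.intCast_zmod_eq_zero_iff_dvd]
  · rw [hker]
    exact ⟨α, rfl⟩

/-- The generic PID criterion: a numeric bound for the Minkowski constant and, for every prime
`q ≤ B` different from `p`, either an order check or a principal prime above `q`. -/
theorem pid_of_certificates (B : ℕ)
    (hB : (4 / Real.pi) ^ ((p - 1) / 2) *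
      (((p - 1).factorial : ℝ) / ((p - 1 : ℕ) : ℝ) ^ (p - 1) * √((p : ℝ) ^ (p - 2))) < B + 1)
    (h : ∀ q ∈ Finset.Icc 1 B, q.Prime → q ≠ p →
      (∀ j, 0 < j → q ^ j ≤ B → (q : ZMod p) ^ j ≠ 1) ∨
        ∃ P ∈ primesOver (span {(q : ℤ)}) (𝓞 K), Submodule.IsPrincipal P) :
    IsPrincipalIdealRing (𝓞 K) := by
  have hgal : IsGalois ℚ K := IsCyclotomicExtension.isGalois {p} ℚ K
  refine RingOfIntegers.isPrincipalIdealRing_of_isPrincipal_of_lt_or_isPrincipal_of_mem_primesOver_of_mem_Icc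
    (fun q hq hqprime => ?_)
  rw [minkowski_eq p K] at hq ⊢
  have hfloor : ⌊(4 / Real.pi) ^ ((p - 1) / 2) *
      (((p - 1).factorial : ℝ) / ((p - 1 : ℕ) : ℝ) ^ (p - 1) * √((p : ℝ) ^ (p - 2)))⌋₊ ≤ B := by
    rw [← Nat.lt_add_one_iff, Nat.floor_lt (by positivity)]
    exact_mod_cast hB
  rw [Finset.mem_Icc] at hq
  by_cases hqp : q = p
  · subst hqp
    obtain ⟨P, hP, hprinc⟩ := exists_principal_prime_over_self q K
    exact ⟨P, hP, Or.inr hprinc⟩
  · rcases h q (Finset.mem_Icc.mpr ⟨hq.1, hq.2.trans hfloor⟩) hqprime hqp with h1 | h1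
    · have : Fact q.Prime := ⟨hqprime⟩
      have hmax : (span {(q : ℤ)}).IsMaximal :=
        Int.ideal_span_isMaximal_of_prime q
      obtain ⟨⟨P, hP⟩⟩ := (span {(q : ℤ)}).nonempty_primesOver (S := 𝓞 K)
      exact ⟨P, hP, Or.inl (lt_of_le_of_lt hfloor (lt_pow_inertiaDeg p K hqprime hqp B h1 P hP))⟩
    · obtain ⟨P, hP, hprinc⟩ := h1
      exact ⟨P, hP, Or.inr hprinc⟩

end Cyclotomic

end Fermat.Agent.Kummer
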