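/-
The ring of integers of the 11th cyclotomic field is a PID (project K: S11 via Kummer).
-/
import Fermat.Agent.Lib.Kummer.PIDGen

set_option autoImplicit false

open NumberField Ideal

namespace Fermat.Agent.Kummer

private theorem aux23_root : ∑ i ∈ Finset.range 11, ((-10 : ℤ) : ZMod 23) ^ i = 0 := by decide

private theorem aux23_alpha :
    (1 : ZMod 23) - ((-10 : ℤ) : ZMod 23) + ((-10 : ℤ) : ZMod 23) ^ 3 = 0 := by decide

/-- A principal prime above `23` in the 11th cyclotomic field: generated by `1 - ζ + ζ ^ 3`. -/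
theorem exists_principal_prime_over_23 (K : Type*) [Field K] [NumberField K]
    [IsCyclotomicExtension {11} ℚ K] :
    ∃ P ∈ primesOver (span {((23 : ℕ) : ℤ)}) (𝓞 K), Submodule.IsPrincipal P := by
  have : Fact (Nat.Prime 11) := ⟨by norm_num⟩
  have : Fact (Nat.Prime 23) := ⟨by norm_num⟩
  have hζ := IsCyclotomicExtension.zeta_spec 11 ℚ K
  have hΦ := zeta_sum_eq_zero 11 K hζ
  simp only [Finset.sum_range_succ, Finset.sum_range_zero, zero_add, pow_zero, pow_one] at hΦ
  set z : 𝓞 K := hζ.toInteger with hz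
  refine exists_principal_prime_over 11 K hζ 23 (-10) aux23_root
    (1 - z + z ^ 3)
    (8 - 2 * z - z ^ 2 - 8 * z ^ 3 - 5 * z ^ 4 - 3 * z ^ 5 + 6 * z ^ 6 + 12 * z ^ 7 + 16 * z ^ 8
      + 11 * z ^ 9)
    (3 - z - z ^ 2 - 4 * z ^ 3 - 3 * z ^ 4 - 2 * z ^ 5 + 2 * z ^ 6 + 5 * z ^ 7 + 7 * z ^ 8
      + 5 * z ^ 9) ?_ ?_ ?_
  · push_cast
    linear_combination (-15 + 5 * z + 11 * z ^ 2) * hΦ
  · push_cast
    linear_combination (-7 + 2 * z + 5 * z ^ 2) * hΦ
  · intro φ hφ
    rw [← hz] at hφ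
    simp only [map_add, map_sub, map_pow, map_one, hφ]
    exact aux23_alpha

theorem pid_eleven (K : Type*) [Field K] [NumberField K] [IsCyclotomicExtension {11} ℚ K] :
    IsPrincipalIdealRing (𝓞 K) := by
  have : Fact (Nat.Prime 11) := ⟨by norm_num⟩
  refine pid_of_certificates 11 K 58 ?_ ?_
  · have hpi : (3.1415 : ℝ) < Real.pi := Real.pi_gt_d4
    have hsq : √((11 : ℝ) ^ 9) < 48558.71 := by
      rw [Real.sqrt_lt' (by norm_num)]
      norm_num
    have h1 : (4 / Real.pi) ^ 5 < (4 / (3.1415 : ℝ)) ^ 5 := by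
      gcongr
    have hfac : (Nat.factorial 10 : ℝ) = 3628800 := by
      norm_num [Nat.factorial]
    have e1 : (11 - 1) / 2 = 5 := by norm_num
    have e2 : 11 - 1 = 10 := by norm_num
    have e3 : 11 - 2 = 9 := by norm_num
    rw [e1, e2, e3, hfac]
    calc (4 / Real.pi) ^ 5 * ((3628800 : ℝ) / ((10 : ℕ) : ℝ) ^ 10 * √(((11 : ℕ) : ℝ) ^ 9))
        ≤ (4 / Real.pi) ^ 5 * ((3628800 : ℝ) / ((10 : ℕ) : ℝ) ^ 10 * 48558.71) := by
          have : √(((11 : ℕ) : ℝ) ^ 9) ≤ 48558.71 := by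
            have := hsq.le
            simpa using this
          gcongr
      _ ≤ (4 / (3.1415 : ℝ)) ^ 5 * ((3628800 : ℝ) / ((10 : ℕ) : ℝ) ^ 10 * 48558.71) := by
          have := h1.le
          gcongr
      _ < ((58 : ℕ) : ℝ) + 1 := by norm_num
  · intro q hq hqprime hq11
    rw [Finset.mem_Icc] at hq
    obtain ⟨h1, h2⟩ := hq
    interval_cases q <;>
      first
      | (exfalso; revert hqprime; norm_num; done)
      | exact absurd rfl hq11
      | exact Or.inr (exists_principal_prime_over_23 K)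
      | exact Or.inl (ordCheck_sound (by norm_num) (by norm_num) (by decide))

end Fermat.Agent.Kummer
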