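/-
The ring of integers of the 13-th cyclotomic field is a PID (project K: S10 via Kummer).
-/
import Fermat.Agent.Lib.Kummer.PIDGen

set_option autoImplicit false

open NumberField Ideal Polynomial

namespace Fermat.Agent.Kummer

section General

variable (p : ℕ) [hp : Fact p.Prime] (K : Type*) [Field K] [NumberField K]
  [hK : IsCyclotomicExtension {p} ℚ K]

/-- Certificate for a principal prime above `q` attached to a monic irreducible factor `Q` of the
cyclotomic polynomial modulo `q`. -/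
theorem exists_principal_prime_over_of_factor {ζ : K} (hζ : IsPrimitiveRoot ζ p) (q : ℕ)
    [hq : Fact q.Prime] (Q : ℤ[X])
    (hQ : Q.map (Int.castRingHom (ZMod q)) ∈ RingOfIntegers.monicFactorsMod hζ.toInteger q)
    (α β γ δ ε : 𝓞 K) (hαβ : α * β = (q : 𝓞 K)) (hαγ : α * γ = aeval hζ.toInteger Q)
    (hα : α = (q : 𝓞 K) * δ + aeval hζ.toInteger Q * ε) :
    ∃ P ∈ primesOver (span {(q : ℤ)}) (𝓞 K), Submodule.IsPrincipal P := by
  have hpne : NeZero p := ⟨hp.out.ne_zero⟩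
  have hexp : ¬ q ∣ RingOfIntegers.exponent hζ.toInteger := by
    rw [RingOfIntegers.exponent_eq_one_iff.mpr
      (IsCyclotomicExtension.Rat.adjoin_singleton_eq_top hζ)]
    exact hq.out.not_dvd_one
  refine ⟨((NumberField.Ideal.primesOverSpanEquivMonicFactorsMod hexp).symm ⟨_, hQ⟩).1,
    ((NumberField.Ideal.primesOverSpanEquivMonicFactorsMod hexp).symm ⟨_, hQ⟩).2, ?_⟩
  rw [NumberField.Ideal.primesOverSpanEquivMonicFactorsMod_symm_apply_eq_span hexp hQ]
  refine ⟨α, ?_⟩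
  apply le_antisymm
  · rw [Ideal.span_le]
    rintro x (rfl | rfl)
    · exact Ideal.mem_span_singleton.mpr ⟨β, hαβ.symm⟩
    · exact Ideal.mem_span_singleton.mpr ⟨γ, hαγ.symm⟩
  · change Ideal.span {α} ≤ _
    rw [Ideal.span_singleton_le_iff_mem, hα]
    exact Ideal.add_mem _ (Ideal.mul_mem_right _ _ (Ideal.subset_span (by simp)))
      (Ideal.mul_mem_right _ _ (Ideal.subset_span (by simp)))

end General

theorem minkowski_thirteen :
    (4 / Real.pi) ^ ((13 - 1) / 2) *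
      (((13 - 1).factorial : ℝ) / ((13 - 1 : ℕ) : ℝ) ^ (13 - 1) * √((13 : ℝ) ^ (13 - 2)))
      < (306 : ℕ) + 1 := by
  have hpi : (3.1415 : ℝ) < Real.pi := Real.pi_gt_d4
  have h1 : (4 / Real.pi) ^ 6 < (4 / 3.1415 : ℝ) ^ 6 := by
    apply pow_lt_pow_left₀ _ (by positivity) (by norm_num)
    exact div_lt_div_of_pos_left (by norm_num) (by norm_num) hpi
  have h2 : √((13 : ℝ) ^ 11) < 1338716 := by
    rw [Real.sqrt_lt' (by norm_num)]
    norm_num
  have h3 : (0 : ℝ) < √((13 : ℝ) ^ 11) := Real.sqrt_pos.mpr (by norm_num)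
  have key : (4 / Real.pi) ^ 6 * (479001600 / 12 ^ 12 * √((13 : ℝ) ^ 11)) < 307 := by
    calc (4 / Real.pi) ^ 6 * (479001600 / 12 ^ 12 * √((13 : ℝ) ^ 11))
        < (4 / 3.1415 : ℝ) ^ 6 * (479001600 / 12 ^ 12 * 1338716) := by
          apply mul_lt_mul h1 (by gcongr) (by positivity) (by positivity)
      _ < 307 := by norm_num
  have e : ((13 - 1) / 2 : ℕ) = 6 := by norm_num
  rw [e]
  have e2 : ((13 - 1).factorial : ℝ) = 479001600 := by
    norm_num [Nat.factorial]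
  rw [e2]
  norm_num at key ⊢
  exact key

section Thirteen

variable (K : Type*) [Field K] [NumberField K] [hK : IsCyclotomicExtension {13} ℚ K]

instance factPrime13_h4 : Fact (Nat.Prime 13) := ⟨by norm_num⟩
instance factPrime3_h4 : Fact (Nat.Prime 3) := ⟨by norm_num⟩
instance factPrime53_h4 : Fact (Nat.Prime 53) := ⟨by norm_num⟩
instance factPrime79_h4 : Fact (Nat.Prime 79) := ⟨by norm_num⟩
instance factPrime131_h4 : Fact (Nat.Prime 131) := ⟨by norm_num⟩
instance factPrime157_h4 : Fact (Nat.Prime 157) := ⟨by norm_num⟩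

omit [NumberField K] hK in
theorem zeta13_sum {ζ : K} (hζ : IsPrimitiveRoot ζ 13) :
    1 + hζ.toInteger + hζ.toInteger ^ 2 + hζ.toInteger ^ 3 + hζ.toInteger ^ 4 + hζ.toInteger ^ 5
      + hζ.toInteger ^ 6 + hζ.toInteger ^ 7 + hζ.toInteger ^ 8 + hζ.toInteger ^ 9
      + hζ.toInteger ^ 10 + hζ.toInteger ^ 11 + hζ.toInteger ^ 12 = 0 := by
  have h := zeta_sum_eq_zero 13 K hζ
  simpa [Finset.sum_range_succ] using h

theorem prime_over_53 {ζ : K} (hζ : IsPrimitiveRoot ζ 13) :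
    ∃ P ∈ primesOver (span {((53 : ℕ) : ℤ)}) (𝓞 K), Submodule.IsPrincipal P := by
  have hs := zeta13_sum K hζ
  set z := hζ.toInteger with hz
  refine exists_principal_prime_over 13 K hζ 53 (-17) (by decide)
    (1 + z + z ^ 3)
    (1 - 24 * z - 35 * z ^ 2 - 25 * z ^ 3 - 10 * z ^ 4 - 14 * z ^ 5 - 20 * z ^ 6 - 29 * z ^ 7
      - 16 * z ^ 8 - 23 * z ^ 9 - 7 * z ^ 10 - 36 * z ^ 11)
    (1 - 7 * z - 11 * z ^ 2 - 8 * z ^ 3 - 3 * z ^ 4 - 4 * z ^ 5 - 6 * z ^ 6 - 9 * z ^ 7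
      - 5 * z ^ 8 - 7 * z ^ 9 - 2 * z ^ 10 - 11 * z ^ 11) ?_ ?_ ?_
  · push_cast
    linear_combination (-52 + 29 * z - 36 * z ^ 2) * hs
  · push_cast
    linear_combination (-16 + 9 * z - 11 * z ^ 2) * hs
  · intro φ h
    rw [map_add, map_add, map_one, map_pow, h]
    decide

theorem prime_over_79 {ζ : K} (hζ : IsPrimitiveRoot ζ 13) :
    ∃ P ∈ primesOver (span {((79 : ℕ) : ℤ)}) (𝓞 K), Submodule.IsPrincipal P := by
  have hs := zeta13_sum K hζ
  set z := hζ.toInteger with hz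
  refine exists_principal_prime_over 13 K hζ 79 (-15) (by decide)
    (1 + z - z ^ 4)
    (24 - 25 * z - 27 * z ^ 2 + 10 * z ^ 3 - 3 * z ^ 4 - 39 * z ^ 5 - 5 * z ^ 6 - 2 * z ^ 7
      - 18 * z ^ 8 - 38 * z ^ 9 + 16 * z ^ 10 - 35 * z ^ 11)
    (5 - 4 * z - 5 * z ^ 2 + 2 * z ^ 3 - 7 * z ^ 5 - z ^ 6 - 3 * z ^ 8 - 7 * z ^ 9 + 3 * z ^ 10
      - 6 * z ^ 11) ?_ ?_ ?_
  · push_cast
    linear_combination (-55 + 54 * z - 51 * z ^ 2 + 35 * z ^ 3) * hs
  · push_cast
    linear_combination (-10 + 10 * z - 9 * z ^ 2 + 6 * z ^ 3) * hs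
  · intro φ h
    rw [map_sub, map_add, map_one, map_pow, h]
    decide

theorem prime_over_131 {ζ : K} (hζ : IsPrimitiveRoot ζ 13) :
    ∃ P ∈ primesOver (span {((131 : ℕ) : ℤ)}) (𝓞 K), Submodule.IsPrincipal P := by
  have hs := zeta13_sum K hζ
  set z := hζ.toInteger with hz
  refine exists_principal_prime_over 13 K hζ 131 (-51) (by decide)
    (1 - z - z ^ 3)
    (111 + 78 * z + 17 * z ^ 2 + 67 * z ^ 3 + 84 * z ^ 4 + 40 * z ^ 5 + 46 * z ^ 6 + 69 * z ^ 7
      + 48 * z ^ 8 + 33 * z ^ 9 + 41 * z ^ 10 + 28 * z ^ 11)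
    (43 + 31 * z + 7 * z ^ 2 + 26 * z ^ 3 + 33 * z ^ 4 + 16 * z ^ 5 + 18 * z ^ 6 + 27 * z ^ 7
      + 19 * z ^ 8 + 13 * z ^ 9 + 16 * z ^ 10 + 11 * z ^ 11) ?_ ?_ ?_
  · push_cast
    linear_combination (-20 - 13 * z - 28 * z ^ 2) * hs
  · push_cast
    linear_combination (-8 - 5 * z - 11 * z ^ 2) * hs
  · intro φ h
    rw [map_sub, map_sub, map_one, map_pow, h]
    decide

theorem prime_over_157 {ζ : K} (hζ : IsPrimitiveRoot ζ 13) :
    ∃ P ∈ primesOver (span {((157 : ℕ) : ℤ)}) (𝓞 K), Submodule.IsPrincipal P := by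
  have hs := zeta13_sum K hζ
  set z := hζ.toInteger with hz
  refine exists_principal_prime_over 13 K hζ 157 75 (by decide)
    (1 - z + z ^ 2 + z ^ 4)
    (89 + 86 * z + 42 * z ^ 2 + 77 * z ^ 3 + 67 * z ^ 4 + 25 * z ^ 5 + 37 * z ^ 6 + 56 * z ^ 7
      + 73 * z ^ 8 + 113 * z ^ 9 + 124 * z ^ 10 + 76 * z ^ 11)
    (-43 - 41 * z - 20 * z ^ 2 - 37 * z ^ 3 - 32 * z ^ 4 - 12 * z ^ 5 - 18 * z ^ 6 - 27 * z ^ 7
      - 35 * z ^ 8 - 54 * z ^ 9 - 59 * z ^ 10 - 36 * z ^ 11) ?_ ?_ ?_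
  · push_cast
    linear_combination (-68 + 65 * z + 48 * z ^ 2 + 76 * z ^ 3) * hs
  · push_cast
    linear_combination (32 - 31 * z - 23 * z ^ 2 - 36 * z ^ 3) * hs
  · intro φ h
    rw [map_add, map_add, map_sub, map_one, map_pow, map_pow, h]
    decide

theorem prime_over_3 {ζ : K} (hζ : IsPrimitiveRoot ζ 13) :
    ∃ P ∈ primesOver (span {((3 : ℕ) : ℤ)}) (𝓞 K), Submodule.IsPrincipal P := by
  have hs := zeta13_sum K hζ
  have hQ : (X ^ 3 - X - 1 : ℤ[X]).map (Int.castRingHom (ZMod 3))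
      ∈ RingOfIntegers.monicFactorsMod hζ.toInteger 3 := by
    have hmin : minpoly ℤ hζ.toInteger = cyclotomic 13 ℤ := by
      rw [cyclotomic_eq_minpoly hζ (by norm_num)]
      exact (minpoly.algebraMap_eq (FaithfulSMul.algebraMap_injective (𝓞 K) K) hζ.toInteger).symm
    have hmap : (X ^ 3 - X - 1 : ℤ[X]).map (Int.castRingHom (ZMod 3)) = X ^ 3 - X - 1 := by
      simp
    have hmonic : (X ^ 3 - X - 1 : (ZMod 3)[X]).Monic := by monicity!
    have hdeg : (X ^ 3 - X - 1 : (ZMod 3)[X]).natDegree = 3 := by compute_degree!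
    rw [RingOfIntegers.monicFactorsMod, Multiset.mem_toFinset, hmin, map_cyclotomic, hmap,
      Polynomial.mem_normalizedFactors_iff (cyclotomic_ne_zero 13 (ZMod 3))]
    refine ⟨?_, hmonic, ?_⟩
    · apply irreducible_of_degree_le_three_of_not_isRoot (by rw [hdeg]; decide)
      intro x
      simp only [IsRoot, eval_sub, eval_pow, eval_X, eval_one]
      revert x
      decide
    · refine ⟨-1 - X ^ 2 - X ^ 3 + X ^ 5 - X ^ 7 + X ^ 8 + X ^ 9, ?_⟩
      have hint : cyclotomic 13 ℤ = (X ^ 3 - X - 1) *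
          (-1 - X ^ 2 - X ^ 3 + X ^ 5 - X ^ 7 + X ^ 8 + X ^ 9)
            + 3 * (X ^ 5 + X ^ 6 + X ^ 9 + X ^ 10) := by
        rw [cyclotomic_prime]
        simp only [Finset.sum_range_succ, Finset.sum_range_zero]
        ring
      have h3 : (3 : (ZMod 3)[X]) = 0 := by
        exact_mod_cast CharP.cast_eq_zero ((ZMod 3)[X]) 3
      have h := congrArg (Polynomial.map (Int.castRingHom (ZMod 3))) hint
      rw [map_cyclotomic] at h
      rw [h]
      simp [h3]
  set z := hζ.toInteger with hz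
  refine exists_principal_prime_over_of_factor 13 K hζ 3 (X ^ 3 - X - 1) hQ
    (1 + z - z ^ 3)
    (-1 - z ^ 2 - z ^ 3 - 2 * z ^ 5 - z ^ 7 - 2 * z ^ 8 + z ^ 9 - 3 * z ^ 10)
    (-1) 0 (-1) ?_ ?_ ?_
  · push_cast
    linear_combination (-4 + 3 * z) * hs
  · simp only [map_sub, map_pow, aeval_X, map_one]
    ring
  · simp only [map_sub, map_pow, aeval_X, map_one]
    ring

end Thirteen

/-- The ring of integers of the `13`-th cyclotomic field is a principal ideal domain. -/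
theorem pid_thirteen (K : Type) [Field K] [NumberField K] [IsCyclotomicExtension {13} ℚ K] :
    IsPrincipalIdealRing (𝓞 K) := by
  have hζ := IsCyclotomicExtension.zeta_spec 13 ℚ K
  refine pid_of_certificates 13 K 306 minkowski_thirteen ?_
  intro q hq hqprime hq13
  have key : ∀ q ∈ Finset.Icc 1 306, ordCheck 13 306 q = true ∨
      q ∈ ({1, 3, 12, 14, 27, 40, 53, 66, 79, 92, 105, 118, 131, 144, 157, 170, 183, 196, 209,
        222, 235, 248, 261, 274, 287, 300} : Finset ℕ) := by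
    decide +kernel
  rcases key q hq with h | h
  · exact Or.inl (ordCheck_sound (by norm_num) hqprime.two_le h)
  · right
    simp only [Finset.mem_insert, Finset.mem_singleton] at h
    rcases h with rfl | rfl | rfl | rfl | rfl | rfl | rfl | rfl | rfl | rfl | rfl | rfl | rfl |
      rfl | rfl | rfl | rfl | rfl | rfl | rfl | rfl | rfl | rfl | rfl | rfl | rfl
    all_goals first
      | exact prime_over_3 K hζ
      | exact prime_over_53 K hζ
      | exact prime_over_79 K hζ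
      | exact prime_over_131 K hζ
      | exact prime_over_157 K hζ
      | exact absurd hqprime (by norm_num)

end Fermat.Agent.Kummer
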