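/-
The ring of integers of the 7th cyclotomic field is a PID (project K: S10 via Kummer).
-/
import Fermat.Agent.Lib.Kummer.PIDGen

set_option autoImplicit false

open NumberField Ideal

namespace Fermat.Agent.Kummer

theorem pid_seven (K : Type*) [Field K] [NumberField K] [IsCyclotomicExtension {7} ℚ K] :
    IsPrincipalIdealRing (𝓞 K) := by
  have : Fact (Nat.Prime 7) := ⟨by norm_num⟩
  refine pid_of_certificates 7 K 4 ?_ ?_
  · have hpi : (3.14 : ℝ) < Real.pi := Real.pi_gt_d2
    have hsq : √((7 : ℝ) ^ 5) < 129.65 := by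
      rw [Real.sqrt_lt' (by norm_num)]
      norm_num
    have h1 : (4 / Real.pi) ^ 3 < (4 / (3.14 : ℝ)) ^ 3 := by
      gcongr
    have hfac : (Nat.factorial 6 : ℝ) = 720 := by
      norm_num [Nat.factorial]
    have e1 : (7 - 1) / 2 = 3 := by norm_num
    have e2 : 7 - 1 = 6 := by norm_num
    have e3 : 7 - 2 = 5 := by norm_num
    rw [e1, e2, e3, hfac]
    calc (4 / Real.pi) ^ 3 * ((720 : ℝ) / ((6 : ℕ) : ℝ) ^ 6 * √(((7 : ℕ) : ℝ) ^ 5))
        ≤ (4 / Real.pi) ^ 3 * ((720 : ℝ) / ((6 : ℕ) : ℝ) ^ 6 * 129.65) := by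
          have : √(((7 : ℕ) : ℝ) ^ 5) ≤ 129.65 := by
            have := hsq.le
            simpa using this
          gcongr
      _ ≤ (4 / (3.14 : ℝ)) ^ 3 * ((720 : ℝ) / ((6 : ℕ) : ℝ) ^ 6 * 129.65) := by
          have := h1.le
          gcongr
      _ < ((4 : ℕ) : ℝ) + 1 := by norm_num
  · intro q hq hqprime hq7
    rw [Finset.mem_Icc] at hq
    obtain ⟨h1, h2⟩ := hq
    interval_cases q
    · exact absurd hqprime (by norm_num)
    · left; exact ordCheck_sound (by norm_num) (by norm_num) (by decide)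
    · left; exact ordCheck_sound (by norm_num) (by norm_num) (by decide)
    · exact absurd hqprime (by norm_num)

end Fermat.Agent.Kummer
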